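import Mathlib
import Fermat.Prelude.Def_ModularCurve_X0

/-!
# GATE-J / J1 / M-HAUPT (helper32): the formal series behind the Hauptmoduln of `Γ₀(2)`, `Γ₀(3)`

`sig3 = ∑ σ₃(n) Xⁿ`, `eisenstein4 = 1 + 240 sig3` (prelude), `V d = (X ↦ X^d)`.

* level 2: `H2 = sig3 - V2 sig3`, `K2 = 1 + 256 V2 sig3 - 16 sig3`;
  `eisenstein4 = K2 + 256 H2`, `V2 eisenstein4 = K2 + 16 H2`.
* level 3: `H3 = sig3 - V3 sig3`, `K3 = 1 + 243 V3 sig3 - 3 sig3`;
  `eisenstein4 = K3 + 243 H3`, `V3 eisenstein4 = K3 + 3 H3`.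

Also: a small computable model (`cl`, `convL`) for the first coefficients of products of integer
power series, used for the Sturm checks: the first six coefficients of

* `X η²⁴ - H2 K2²`, `X² V2(η²⁴) - H2² K2`,
* `X η²⁴ (K3 + 27 H3) - K3³ H3`, `X³ V3(η²⁴) (K3 + 27 H3) - K3 H3³`

vanish (`η²⁴ = dedekindEtaUnit`).
-/

set_option autoImplicit false

namespace Fermat.Agent.GJ.J1.Haupt

open PowerSeries ModularCurve

/-- `∑ σ₃(n) Xⁿ` -/
noncomputable def sig3 : PowerSeries ℤ := PowerSeries.mk fun n => ∑ d ∈ n.divisors, (d : ℤ) ^ 3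

@[simp] theorem coeff_sig3 (n : ℕ) : coeff n sig3 = ∑ d ∈ n.divisors, (d : ℤ) ^ 3 := by
  simp [sig3]

theorem eisenstein4_eq : eisenstein4 = 1 + C (240 : ℤ) * sig3 := by
  ext n
  rw [eisenstein4, coeff_mk, map_add, coeff_one, coeff_C_mul, coeff_sig3]
  split_ifs with h
  · subst h; simp
  · simp

/-- `X ↦ X²` -/
noncomputable abbrev V2 : PowerSeries ℤ →ₐ[ℤ] PowerSeries ℤ := PowerSeries.expand 2 two_ne_zero

/-- `X ↦ X³` -/
noncomputable abbrev V3 : PowerSeries ℤ →ₐ[ℤ] PowerSeries ℤ := PowerSeries.expand 3 three_ne_zero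

noncomputable def H2 : PowerSeries ℤ := sig3 - V2 sig3
noncomputable def K2 : PowerSeries ℤ := 1 + 256 * V2 sig3 - 16 * sig3
noncomputable def H3 : PowerSeries ℤ := sig3 - V3 sig3
noncomputable def K3 : PowerSeries ℤ := 1 + 243 * V3 sig3 - 3 * sig3

theorem C240 : (C (240 : ℤ) : PowerSeries ℤ) = 240 := by rw [map_ofNat]

theorem eisenstein4_eq_two : eisenstein4 = K2 + 256 * H2 := by
  rw [eisenstein4_eq, C240, K2, H2]; ring

theorem V2_eisenstein4 : V2 eisenstein4 = K2 + 16 * H2 := by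
  rw [eisenstein4_eq, C240, K2, H2]
  simp only [map_add, map_one, map_mul, map_ofNat]
  ring

theorem eisenstein4_eq_three : eisenstein4 = K3 + 243 * H3 := by
  rw [eisenstein4_eq, C240, K3, H3]; ring

theorem V3_eisenstein4 : V3 eisenstein4 = K3 + 3 * H3 := by
  rw [eisenstein4_eq, C240, K3, H3]
  simp only [map_add, map_one, map_mul, map_ofNat]
  ring

/-! ### a computable model for the first coefficients -/

/-- the first `n` coefficients -/
noncomputable def cl (n : ℕ) (f : PowerSeries ℤ) : List ℤ := (List.range n).map fun i => coeff i f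

/-- truncated convolution -/
def convL (n : ℕ) (a b : List ℤ) : List ℤ :=
  (List.range n).map fun k => ((List.range (k + 1)).map fun i => a.getD i 0 * b.getD (k - i) 0).sum

/-- truncated power -/
def powL (n : ℕ) (a : List ℤ) : ℕ → List ℤ
  | 0 => (List.range n).map fun i => if i = 0 then 1 else 0
  | k + 1 => convL n (powL n a k) a

theorem cl_length (n : ℕ) (f : PowerSeries ℤ) : (cl n f).length = n := by simp [cl]

theorem cl_getD (n : ℕ) (f : PowerSeries ℤ) {i : ℕ} (hi : i < n) :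
    (cl n f).getD i 0 = coeff i f := by
  simp [cl, List.getD_eq_getElem?_getD, hi]

theorem coeff_eq_zero_of_cl {n : ℕ} {f : PowerSeries ℤ} (h : cl n f = List.replicate n 0) {i : ℕ}
    (hi : i < n) : coeff i f = 0 := by
  rw [← cl_getD n f hi, h]
  simp [List.getD_eq_getElem?_getD, hi]

theorem cl_mul (n : ℕ) (f g : PowerSeries ℤ) : cl n (f * g) = convL n (cl n f) (cl n g) := by
  unfold convL
  rw [cl]
  apply List.map_congr_left
  intro k hk
  have hk' : k < n := List.mem_range.mp hk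
  rw [coeff_mul, Finset.Nat.sum_antidiagonal_eq_sum_range_succ (fun i j => coeff i f * coeff j g)]
  show ((List.range (k + 1)).map fun i => coeff i f * coeff (k - i) g).sum = _
  congr 1
  apply List.map_congr_left
  intro i hi
  have hi' : i < k + 1 := List.mem_range.mp hi
  rw [cl_getD n f (by omega), cl_getD n g (by omega)]

theorem cl_one (n : ℕ) :
    cl n (1 : PowerSeries ℤ) = (List.range n).map fun i => if i = 0 then 1 else 0 := by
  simp [cl, coeff_one]

theorem cl_pow (n : ℕ) (f : PowerSeries ℤ) (k : ℕ) : cl n (f ^ k) = powL n (cl n f) k := by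
  induction k with
  | zero => rw [pow_zero, cl_one, powL]
  | succ k ih => rw [pow_succ, cl_mul, ih, powL]

theorem cl_sub (n : ℕ) (f g : PowerSeries ℤ) :
    cl n (f - g) = List.zipWith (· - ·) (cl n f) (cl n g) := by
  apply List.ext_getElem
  · simp [cl]
  · intro i h1 h2
    simp [cl]

theorem cl_add (n : ℕ) (f g : PowerSeries ℤ) :
    cl n (f + g) = List.zipWith (· + ·) (cl n f) (cl n g) := by
  apply List.ext_getElem
  · simp [cl]
  · intro i h1 h2
    simp [cl]

theorem cl_X (n : ℕ) :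
    cl n (X : PowerSeries ℤ) = (List.range n).map fun i => if i = 1 then 1 else 0 := by
  simp [cl, coeff_X]

theorem cl_ofNat_mul (n : ℕ) (a : ℕ) [a.AtLeastTwo] (f : PowerSeries ℤ) :
    cl n ((OfNat.ofNat a : PowerSeries ℤ) * f) =
      (cl n f).map fun x => (OfNat.ofNat a : ℤ) * x := by
  have : (OfNat.ofNat a : PowerSeries ℤ) = C (OfNat.ofNat a : ℤ) := by rw [map_ofNat]
  rw [this, cl, cl, List.map_map]
  apply List.map_congr_left
  intro i _
  simp only [Function.comp, coeff_C_mul]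

theorem cl_expand (n p : ℕ) (hp : p ≠ 0) (f : PowerSeries ℤ) :
    cl n (expand p hp f) =
      (List.range n).map fun i => if p ∣ i then (cl n f).getD (i / p) 0 else 0 := by
  rw [cl]
  apply List.map_congr_left
  intro i hi
  have hi' : i < n := List.mem_range.mp hi
  rw [coeff_expand]
  split_ifs with h
  · rw [cl_getD]
    exact lt_of_le_of_lt (Nat.div_le_self _ _) hi'
  · rfl

/-! ### the data -/

theorem cl_sig3 : cl 6 sig3 = [0, 1, 9, 28, 73, 126] := by
  simp only [cl, sig3, coeff_mk, List.range_succ, List.range_zero, List.map_cons,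
    List.map_nil, List.nil_append, List.cons_append]
  decide

theorem etaProd_eq_pent : etaProd = pentagonalSeries ℤ := by
  rw [etaProd]
  exact PowerSeries.WithPiTopology.tprod_one_sub_X_pow ℤ

theorem not_pent {n : ℕ} (h : ∀ k : ℤ, -2 ≤ k → k ≤ 2 → k * (3 * k - 1) ≠ 2 * n) (hn : n ≤ 6) :
    n ∉ Set.range pentagonal := by
  rintro ⟨k, hk⟩
  have h2 := two_mul_natCast_pentagonal k
  rw [hk] at h2
  have hn' : (n : ℤ) ≤ 6 := by exact_mod_cast hn
  have h3 : k ≤ 2 := by nlinarith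
  have h4 : -2 ≤ k := by nlinarith
  exact h k h4 h3 h2.symm

theorem coeff_etaProd_0 : coeff 0 etaProd = 1 := by
  rw [etaProd_eq_pent]
  have := coeff_pentagonalSeries_pentagonal ℤ 0
  simpa [pentagonal] using this

theorem coeff_etaProd_1 : coeff 1 etaProd = -1 := by
  rw [etaProd_eq_pent]
  have := coeff_pentagonalSeries_pentagonal ℤ 1
  simpa [pentagonal] using this

theorem coeff_etaProd_2 : coeff 2 etaProd = -1 := by
  rw [etaProd_eq_pent]
  have := coeff_pentagonalSeries_pentagonal ℤ (-1)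
  simpa [pentagonal] using this

theorem coeff_etaProd_5 : coeff 5 etaProd = 1 := by
  rw [etaProd_eq_pent]
  have := coeff_pentagonalSeries_pentagonal ℤ 2
  simpa [pentagonal] using this

theorem coeff_etaProd_3 : coeff 3 etaProd = 0 := by
  rw [etaProd_eq_pent]
  apply coeff_pentagonalSeries_eq_zero
  apply not_pent _ (by norm_num)
  intro k h1 h2
  interval_cases k <;> norm_num

theorem coeff_etaProd_4 : coeff 4 etaProd = 0 := by
  rw [etaProd_eq_pent]
  apply coeff_pentagonalSeries_eq_zero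
  apply not_pent _ (by norm_num)
  intro k h1 h2
  interval_cases k <;> norm_num

theorem cl_etaProd : cl 6 etaProd = [1, -1, -1, 0, 0, 1] := by
  simp only [cl, List.range_succ, List.range_zero, List.map_cons,
    List.map_nil, List.nil_append, List.cons_append, coeff_etaProd_0, coeff_etaProd_1,
    coeff_etaProd_2, coeff_etaProd_3, coeff_etaProd_4, coeff_etaProd_5]

/-- `Δ/q = 1 - 24 q + 252 q² - 1472 q³ + 4830 q⁴ - 6048 q⁵ + …` -/
theorem cl_dedekindEtaUnit : cl 6 dedekindEtaUnit = [1, -24, 252, -1472, 4830, -6048] := by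
  rw [dedekindEtaUnit, cl_pow, cl_etaProd]
  decide +kernel

theorem cl_H2 : cl 6 H2 = [0, 1, 8, 28, 64, 126] := by
  rw [H2, cl_sub, cl_expand, cl_sig3]
  decide +kernel

theorem cl_K2 : cl 6 K2 = [1, -16, 112, -448, 1136, -2016] := by
  rw [K2, cl_sub, cl_add, cl_ofNat_mul, cl_ofNat_mul, cl_one, cl_expand, cl_sig3]
  decide +kernel

theorem cl_H3 : cl 6 H3 = [0, 1, 9, 27, 73, 126] := by
  rw [H3, cl_sub, cl_expand, cl_sig3]
  decide +kernel

theorem cl_K3 : cl 6 K3 = [1, -3, -27, 159, -219, -378] := by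
  rw [K3, cl_sub, cl_add, cl_ofNat_mul, cl_ofNat_mul, cl_one, cl_expand, cl_sig3]
  decide +kernel

/-! ### the four Sturm checks -/

theorem chk_A2 : cl 6 (X * dedekindEtaUnit - H2 * K2 ^ 2) = List.replicate 6 0 := by
  rw [cl_sub, cl_mul, cl_mul, cl_pow, cl_X, cl_dedekindEtaUnit, cl_H2, cl_K2]
  decide +kernel

theorem chk_B2 : cl 6 (X ^ 2 * V2 dedekindEtaUnit - H2 ^ 2 * K2) = List.replicate 6 0 := by
  rw [cl_sub, cl_mul, cl_mul, cl_pow, cl_pow, cl_X, cl_expand, cl_dedekindEtaUnit, cl_H2, cl_K2]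
  decide +kernel

theorem chk_A3 :
    cl 6 (X * dedekindEtaUnit * (K3 + 27 * H3) - K3 ^ 3 * H3) = List.replicate 6 0 := by
  rw [cl_sub, cl_mul, cl_mul, cl_mul, cl_pow, cl_add, cl_ofNat_mul, cl_X, cl_dedekindEtaUnit,
    cl_H3, cl_K3]
  decide +kernel

theorem chk_B3 :
    cl 6 (X ^ 3 * V3 dedekindEtaUnit * (K3 + 27 * H3) - K3 * H3 ^ 3) = List.replicate 6 0 := by
  rw [cl_sub, cl_mul, cl_mul, cl_mul, cl_pow, cl_pow, cl_add, cl_ofNat_mul, cl_X, cl_expand,
    cl_dedekindEtaUnit, cl_H3, cl_K3]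
  decide +kernel

end Fermat.Agent.GJ.J1.Haupt
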