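import Mathlib
import Fermat.Agent.S23.FormT
import Fermat.Agent.S23.Unbundled

/-!
# GATE-J / J1 / M-HAUPT (helper32): `f(Nz)` for a level-one form `f`

For `f` a modular form of level one and weight `k`, `Vd N f = (z ↦ f(Nz))` is a modular form
of weight `k` on `Γ₀(N)` whose `q`-expansion is `(qExpansion f)(X^N)`.
(Generalises `Fermat.Agent.S23.FormT.T` from `E₄` to any level-one form.)
-/

set_option autoImplicit false

open UpperHalfPlane ModularForm
open scoped MatrixGroups ModularForm Manifold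

namespace Fermat.Agent.GJ.J1.Haupt

open Fermat.Agent.S23

/-- `z ↦ f(Nz)` -/
noncomputable def Vd (N : ℕ) (f : ℍ → ℂ) : ℍ → ℂ := fun z => f (heckeDiagMatrix N • z)

theorem Vd_eq (N : ℕ) [NeZero N] (k : ℤ) (f : ℍ → ℂ) :
    Vd N f = ((N : ℂ) ^ (k - 1))⁻¹ • (f ∣[k] heckeDiagMatrix N) := by
  have hN : N ≠ 0 := NeZero.ne N
  have hN' : (N : ℂ) ^ (k - 1) ≠ 0 := zpow_ne_zero _ (by exact_mod_cast hN)
  funext τ
  rw [Pi.smul_apply, slash_heckeDiagMatrix_apply k hN, smul_eq_mul,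
    ← mul_assoc, inv_mul_cancel₀ hN', one_mul]
  rfl

theorem isMF_Vd (N : ℕ) [NeZero N] {k : ℤ} {f : ℍ → ℂ} (hf : IsMF 𝒮ℒ k f) :
    IsMF (G0 N) k (Vd N f) := by
  obtain ⟨F, rfl⟩ := hf
  obtain ⟨F', hF'⟩ := FormT.isMF_slash_heckeDiag N F
  refine ⟨((N : ℂ) ^ (k - 1))⁻¹ • F', ?_⟩
  rw [Vd_eq N k, ← hF']
  rfl

open Function in
/-- The `q`-expansion of `f(Nz)` is obtained from that of `f` by `q ↦ q ^ N`. -/
theorem qExpansion_Vd_coeff (N : ℕ) [NeZero N] {k : ℤ} {f : ℍ → ℂ} (hf : IsMF 𝒮ℒ k f) (n : ℕ) :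
    (qExpansion 1 (Vd N f)).coeff n =
      if N ∣ n then (qExpansion 1 f).coeff (n / N) else 0 := by
  have hN : N ≠ 0 := NeZero.ne N
  obtain ⟨F', hF'⟩ := isMF_Vd N hf
  obtain ⟨F, rfl⟩ := hf
  rw [← hF']
  symm
  refine ModularFormClass.qExpansion_coeff_unique (f := F')
    (c := fun n => if N ∣ n then (qExpansion 1 (F : ℍ → ℂ)).coeff (n / N) else 0) one_pos
    (CongruenceSubgroup.one_mem_strictPeriods_Gamma0 N) (fun τ => ?_) n
  rw [hF']
  have h1 := ModularForm.hasSum_qExpansion (f := F) one_pos one_mem_strictPeriods_SL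
    (heckeDiagMatrix N • τ)
  have hq : Periodic.qParam 1 ((heckeDiagMatrix N • τ : ℍ) : ℂ) = Periodic.qParam 1 (τ : ℂ) ^ N := by
    rw [coe_heckeDiagMatrix_smul hN, Periodic.qParam, Periodic.qParam, ← Complex.exp_nat_mul]
    congr 1
    ring
  have hinj : Injective (fun m : ℕ => N * m) := fun a b h => Nat.eq_of_mul_eq_mul_left
    (Nat.pos_of_ne_zero hN) h
  rw [← hinj.hasSum_iff]
  · convert h1 using 1
    · funext m
      simp only [Function.comp_apply, dvd_mul_right, if_true, Nat.mul_div_cancel_left _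
        (Nat.pos_of_ne_zero hN), smul_eq_mul, hq, pow_mul]
    · rfl
  · intro x hx
    have : ¬ N ∣ x := fun ⟨m, hm⟩ => hx ⟨m, hm.symm⟩
    simp [this]

theorem qExpansion_Vd (N : ℕ) [NeZero N] {k : ℤ} {f : ℍ → ℂ} (hf : IsMF 𝒮ℒ k f) :
    qExpansion 1 (Vd N f) = PowerSeries.expand N (NeZero.ne N) (qExpansion 1 f) := by
  ext n
  rw [qExpansion_Vd_coeff N hf, PowerSeries.coeff_expand]

end Fermat.Agent.GJ.J1.Haupt
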