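import Mathlib
import Fermat.Prelude.Thm_ModularForm_sturm_bound_Gamma0
import Fermat.Agent.GJ.J1.Haupt.Forms
import Fermat.Agent.S28.JFunction
import Fermat.Agent.S16.U2Seven.LevelOneSturm
import Fermat.Agent.S20_helper27.Index

/-!
# GATE-J / J1 / M-HAUPT (helper32): integer series realised by modular forms on `Γ₀(N)`

`Rz N k P`: the integer power series `P` is the `q`-expansion of a modular form of weight `k` on
`Γ₀(N)`.  Closed under `+, -, *, ^`, division by nonzero integers; contains `E₄`, `Δ` and their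
`X ↦ X^N` expansions.  Sturm: `Rz N k P` and `coeff n P = 0` for `n ≤ k ψ(N)/12` imply `P = 0`.
-/

set_option autoImplicit false

open UpperHalfPlane ModularForm
open scoped MatrixGroups ModularForm Manifold

namespace Fermat.Agent.GJ.J1.Haupt

open Fermat.Agent.S23 Fermat.Agent.S28 PowerSeries ModularCurve

/-- `P` is the `q`-expansion of a level-one form of weight `k`. -/
def Rz1 (k : ℤ) (P : PowerSeries ℤ) : Prop :=
  ∃ F : ℍ → ℂ, IsMF 𝒮ℒ k F ∧ qExpansion 1 F = toC P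

/-- `P` is the `q`-expansion of a form of weight `k` on `Γ₀(N)`. -/
def Rz (N : ℕ) (k : ℤ) (P : PowerSeries ℤ) : Prop :=
  ∃ F : ℍ → ℂ, IsMF (G0 N) k F ∧ qExpansion 1 F = toC P

theorem rz1_eisenstein4 : Rz1 4 eisenstein4 :=
  ⟨E₄, ⟨E₄, rfl⟩, qExpansion_E4⟩

theorem rz1_delta : Rz1 12 (X * dedekindEtaUnit) := by
  refine ⟨ModularForm.discriminant, IsCF.isMF ⟨CuspForm.discriminant, rfl⟩, ?_⟩
  rw [Fermat.Agent.S16.U2Seven.qExpansion_discriminant, toC_mul, toC_X]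

theorem Rz1.rz {k : ℤ} {P : PowerSeries ℤ} (h : Rz1 k P) (N : ℕ) : Rz N k P := by
  obtain ⟨F, hF, hq⟩ := h
  exact ⟨F, hF.levelOne_to_G0, hq⟩

theorem toC_expand (N : ℕ) (hN : N ≠ 0) (P : PowerSeries ℤ) :
    toC (expand N hN P) = expand N hN (toC P) := by
  rw [toC, toC, map_expand]

theorem Rz1.expand {k : ℤ} {P : PowerSeries ℤ} (h : Rz1 k P) (N : ℕ) [NeZero N] :
    Rz N k (expand N (NeZero.ne N) P) := by
  obtain ⟨F, hF, hq⟩ := h
  exact ⟨Vd N F, isMF_Vd N hF, by rw [qExpansion_Vd N hF, hq, toC_expand]⟩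

variable {N : ℕ} {a b k : ℤ} {P Q : PowerSeries ℤ}

theorem Rz.add (hP : Rz N k P) (hQ : Rz N k Q) : Rz N k (P + Q) := by
  obtain ⟨F, hF, hFq⟩ := hP
  obtain ⟨G, hG, hGq⟩ := hQ
  exact ⟨F + G, hF.add hG, by rw [qExp_add hF.nice hG.nice, hFq, hGq, toC_add]⟩

theorem Rz.sub (hP : Rz N k P) (hQ : Rz N k Q) : Rz N k (P - Q) := by
  obtain ⟨F, hF, hFq⟩ := hP
  obtain ⟨G, hG, hGq⟩ := hQ
  exact ⟨F - G, hF.sub hG, by rw [qExp_sub hF.nice hG.nice, hFq, hGq, toC_sub]⟩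

theorem Rz.mul (hP : Rz N a P) (hQ : Rz N b Q) : Rz N (a + b) (P * Q) := by
  obtain ⟨F, hF, hFq⟩ := hP
  obtain ⟨G, hG, hGq⟩ := hQ
  exact ⟨F * G, hF.mul_cast hG rfl, by rw [qExp_mul hF.nice hG.nice, hFq, hGq, toC_mul]⟩

theorem Rz.cast (hP : Rz N a P) (h : a = b) : Rz N b P := h ▸ hP

theorem Rz.pow (hP : Rz N a P) (n : ℕ) : Rz N (a * n) (P ^ n) := by
  obtain ⟨F, hF, hFq⟩ := hP
  exact ⟨F ^ n, hF.pow_cast n rfl, by rw [qExp_pow hF.nice, hFq, toC_pow]⟩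

theorem toC_zsmul (c : ℤ) (P : PowerSeries ℤ) : toC (c • P) = (c : ℂ) • toC P := by
  rw [toC, map_zsmul, ← Int.cast_smul_eq_zsmul ℂ]
  rfl

theorem Rz.zsmul (c : ℤ) (hP : Rz N k P) : Rz N k (c • P) := by
  obtain ⟨F, hF, hFq⟩ := hP
  exact ⟨(c : ℂ) • F, hF.smul _, by rw [qExp_smul _ hF.nice, hFq, toC_zsmul]⟩

/-- division by a nonzero integer -/
theorem Rz.of_zsmul {c : ℤ} (hc : c ≠ 0) (hP : Rz N k (c • P)) : Rz N k P := by
  obtain ⟨F, hF, hFq⟩ := hP
  have hc' : (c : ℂ) ≠ 0 := by exact_mod_cast hc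
  exact ⟨(c : ℂ)⁻¹ • F, hF.smul _, by
    rw [qExp_smul _ hF.nice, hFq, toC_zsmul, inv_smul_smul₀ hc']⟩

theorem toC_injective : Function.Injective toC := by
  intro P Q h
  ext n
  have := congrArg (coeff n) h
  simpa using this

/-- **Sturm bound** for realised series. -/
theorem Rz.eq_zero [NeZero N] (hP : Rz N k P)
    (h : ∀ n : ℕ, n ≤ (k * (CongruenceSubgroup.Gamma0 N).index).toNat / 12 → coeff n P = 0) :
    P = 0 := by
  obtain ⟨F, ⟨F', rfl⟩, hFq⟩ := hP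
  have h0 : F' = 0 := by
    refine ModularForm.sturm_bound_Gamma0 N F' fun n hn => ?_
    rw [hFq, coeff_toC, h n hn, Int.cast_zero]
  apply toC_injective
  rw [← hFq, h0, toC_zero]
  exact qExp_zero

theorem index_Gamma0_two : (CongruenceSubgroup.Gamma0 2).index = 3 := by
  rw [Fermat.Agent.S20_helper27.index_Gamma0]
  have := Fermat.Agent.S20_helper27.dedekindPsi_prime_pow Nat.prime_two one_pos
  simpa using this

theorem index_Gamma0_three : (CongruenceSubgroup.Gamma0 3).index = 4 := by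
  rw [Fermat.Agent.S20_helper27.index_Gamma0]
  have := Fermat.Agent.S20_helper27.dedekindPsi_prime_pow Nat.prime_three one_pos
  simpa using this

end Fermat.Agent.GJ.J1.Haupt
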