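import Mathlib
import Fermat.Agent.GJ.J1.Haupt.Series
import Fermat.Agent.GJ.J1.Haupt.Sturm

/-!
# GATE-J / J1 / M-HAUPT (helper32): the level-2 identities `Δ(q) = H2 K2²`, `Δ(q²) = H2² K2`

in `ℤ⟦X⟧`, with `Δ(q) = X * dedekindEtaUnit`.  Weight 12 on `Γ₀(2)`: Sturm bound 3.
-/

set_option autoImplicit false

namespace Fermat.Agent.GJ.J1.Haupt

open PowerSeries ModularCurve

theorem rz_H2 : Rz 2 4 H2 := by
  apply Rz.of_zsmul (c := 240) (by norm_num)
  have h : (240 : ℤ) • H2 = eisenstein4 - V2 eisenstein4 := by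
    rw [V2_eisenstein4, eisenstein4_eq_two, zsmul_eq_mul]
    push_cast
    ring
  rw [h]
  exact (rz1_eisenstein4.rz 2).sub (rz1_eisenstein4.expand 2)

theorem rz_K2 : Rz 2 4 K2 := by
  apply Rz.of_zsmul (c := 15) (by norm_num)
  have h : (15 : ℤ) • K2 = (16 : ℤ) • V2 eisenstein4 - eisenstein4 := by
    rw [V2_eisenstein4, eisenstein4_eq_two, zsmul_eq_mul, zsmul_eq_mul]
    push_cast
    ring
  rw [h]
  exact ((rz1_eisenstein4.expand 2).zsmul 16).sub (rz1_eisenstein4.rz 2)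

theorem sturm_two {n : ℕ}
    (hn : n ≤ ((12 : ℤ) * (CongruenceSubgroup.Gamma0 2).index).toNat / 12) : n < 6 := by
  rw [index_Gamma0_two] at hn
  have : ((12 : ℤ) * ((3 : ℕ) : ℤ)).toNat / 12 = 3 := by decide
  omega

/-- `Δ(q) = H2 K2²` -/
theorem delta_eq_two : X * dedekindEtaUnit = H2 * K2 ^ 2 := by
  have hR : Rz 2 12 (X * dedekindEtaUnit - H2 * K2 ^ 2) :=
    (rz1_delta.rz 2).sub ((rz_H2.mul (rz_K2.pow 2)).cast (by norm_num))
  exact sub_eq_zero.mp (hR.eq_zero fun n hn => coeff_eq_zero_of_cl chk_A2 (sturm_two hn))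

theorem V2_delta : V2 (X * dedekindEtaUnit) = X ^ 2 * V2 dedekindEtaUnit := by
  rw [map_mul, expand_X]

/-- `Δ(q²) = H2² K2` -/
theorem delta_two_eq : X ^ 2 * V2 dedekindEtaUnit = H2 ^ 2 * K2 := by
  have hR : Rz 2 12 (X ^ 2 * V2 dedekindEtaUnit - H2 ^ 2 * K2) := by
    rw [← V2_delta]
    exact (rz1_delta.expand 2).sub (((rz_H2.pow 2).mul rz_K2).cast (by norm_num))
  exact sub_eq_zero.mp (hR.eq_zero fun n hn => coeff_eq_zero_of_cl chk_B2 (sturm_two hn))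

end Fermat.Agent.GJ.J1.Haupt
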