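import Mathlib
import Fermat.Agent.GJ.J1.Haupt.Series
import Fermat.Agent.GJ.J1.Haupt.Sturm

/-!
# GATE-J / J1 / M-HAUPT (helper32): the level-3 identities

`Δ(q) (K3 + 27 H3) = K3³ H3`, `Δ(q³) (K3 + 27 H3) = K3 H3³` in `ℤ⟦X⟧`, with
`Δ(q) = X * dedekindEtaUnit`.  Weight 16 on `Γ₀(3)`: Sturm bound 5.
-/

set_option autoImplicit false

namespace Fermat.Agent.GJ.J1.Haupt

open PowerSeries ModularCurve

theorem rz_H3 : Rz 3 4 H3 := by
  apply Rz.of_zsmul (c := 240) (by norm_num)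
  have h : (240 : ℤ) • H3 = eisenstein4 - V3 eisenstein4 := by
    rw [V3_eisenstein4, eisenstein4_eq_three, zsmul_eq_mul]
    push_cast
    ring
  rw [h]
  exact (rz1_eisenstein4.rz 3).sub (rz1_eisenstein4.expand 3)

theorem rz_K3 : Rz 3 4 K3 := by
  apply Rz.of_zsmul (c := 80) (by norm_num)
  have h : (80 : ℤ) • K3 = (81 : ℤ) • V3 eisenstein4 - eisenstein4 := by
    rw [V3_eisenstein4, eisenstein4_eq_three, zsmul_eq_mul, zsmul_eq_mul]
    push_cast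
    ring
  rw [h]
  exact ((rz1_eisenstein4.expand 3).zsmul 81).sub (rz1_eisenstein4.rz 3)

theorem rz_K3_add : Rz 3 4 (K3 + 27 * H3) := by
  have h : K3 + 27 * H3 = K3 + (27 : ℤ) • H3 := by
    rw [zsmul_eq_mul]
    push_cast
    ring
  rw [h]
  exact rz_K3.add (rz_H3.zsmul 27)

theorem sturm_three {n : ℕ}
    (hn : n ≤ ((16 : ℤ) * (CongruenceSubgroup.Gamma0 3).index).toNat / 12) : n < 6 := by
  rw [index_Gamma0_three] at hn
  have : ((16 : ℤ) * ((4 : ℕ) : ℤ)).toNat / 12 = 5 := by decide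
  omega

/-- `Δ(q) (K3 + 27 H3) = K3³ H3` -/
theorem delta_eq_three : X * dedekindEtaUnit * (K3 + 27 * H3) = K3 ^ 3 * H3 := by
  have hR : Rz 3 16 (X * dedekindEtaUnit * (K3 + 27 * H3) - K3 ^ 3 * H3) :=
    (((rz1_delta.rz 3).mul rz_K3_add).cast (by norm_num)).sub
      (((rz_K3.pow 3).mul rz_H3).cast (by norm_num))
  exact sub_eq_zero.mp (hR.eq_zero fun n hn => coeff_eq_zero_of_cl chk_A3 (sturm_three hn))

theorem V3_delta : V3 (X * dedekindEtaUnit) = X ^ 3 * V3 dedekindEtaUnit := by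
  rw [map_mul, expand_X]

/-- `Δ(q³) (K3 + 27 H3) = K3 H3³` -/
theorem delta_three_eq : X ^ 3 * V3 dedekindEtaUnit * (K3 + 27 * H3) = K3 * H3 ^ 3 := by
  have hR : Rz 3 16 (X ^ 3 * V3 dedekindEtaUnit * (K3 + 27 * H3) - K3 * H3 ^ 3) := by
    rw [← V3_delta]
    exact (((rz1_delta.expand 3).mul rz_K3_add).cast (by norm_num)).sub
      ((rz_K3.mul (rz_H3.pow 3)).cast (by norm_num))
  exact sub_eq_zero.mp (hR.eq_zero fun n hn => coeff_eq_zero_of_cl chk_B3 (sturm_three hn))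

end Fermat.Agent.GJ.J1.Haupt
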