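import Mathlib
import Fermat.Prelude.Def_ModularCurve_X0ModL
import Fermat.Agent.GJ.J1.Haupt.Level2
import Fermat.Agent.GJ.J1.Haupt.Level3
import Fermat.Agent.S28.CuspExp

/-!
# GATE-J / J1 / M-HAUPT (helper32): the Hauptmoduln `t₂`, `t₃` as Laurent series over any ring

`tTwo R = q⁻¹ - 24 + 276 q - …` (`= (η(z)/η(2z))²⁴`), `tThree R = q⁻¹ - 12 + 54 q - …`
(`= (η(z)/η(3z))¹²`), for every commutative ring `R`, with

* `jqModC R * tTwo R ^ 2 = (tTwo R + 256) ^ 3`,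
* `qExpand R 2 (jqModC R) * tTwo R = (tTwo R + 16) ^ 3`,
* `jqModC R * tThree R ^ 3 = (tThree R + 27) * (tThree R + 243) ^ 3`,
* `qExpand R 3 (jqModC R) * tThree R = (tThree R + 27) * (tThree R + 3) ^ 3`.
-/

set_option autoImplicit false

namespace Fermat.Agent.GJ.J1.Haupt

open PowerSeries ModularCurve

/-! ### pure algebra -/

section Algebra

variable {A : Type*} [CommRing A] (e K U Ui η ηi x : A)

theorem alg_two_a (hU : U * Ui = 1) (hη : η * ηi = 1) (hA : η = U * K ^ 2)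
    (he : e = K + 256 * (x * U)) :
    e ^ 3 * ηi * (K * Ui) ^ 2 = (K * Ui + 256 * x) ^ 3 := by
  have h1 : ηi * K ^ 2 = Ui := by
    calc ηi * K ^ 2 = ηi * K ^ 2 * (U * Ui) := by rw [hU, mul_one]
      _ = ηi * (U * K ^ 2) * Ui := by ring
      _ = Ui := by rw [← hA, mul_comm ηi η, hη, one_mul]
  calc e ^ 3 * ηi * (K * Ui) ^ 2 = e ^ 3 * (ηi * K ^ 2) * Ui ^ 2 := by ring
    _ = e ^ 3 * Ui ^ 3 := by rw [h1]; ring
    _ = (K * Ui + 256 * x * (U * Ui)) ^ 3 := by rw [he]; ring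
    _ = (K * Ui + 256 * x) ^ 3 := by rw [hU, mul_one]

theorem alg_two_b (hU : U * Ui = 1) (hη : η * ηi = 1) (hB : η = U ^ 2 * K)
    (he : e = K + 16 * (x * U)) :
    e ^ 3 * ηi * (K * Ui) = (K * Ui + 16 * x) ^ 3 := by
  have h1 : ηi * K = Ui ^ 2 := by
    calc ηi * K = ηi * K * (U * Ui) ^ 2 := by rw [hU, one_pow, mul_one]
      _ = ηi * (U ^ 2 * K) * Ui ^ 2 := by ring
      _ = Ui ^ 2 := by rw [← hB, mul_comm ηi η, hη, one_mul]
  calc e ^ 3 * ηi * (K * Ui) = e ^ 3 * (ηi * K) * Ui := by ring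
    _ = e ^ 3 * Ui ^ 3 := by rw [h1]; ring
    _ = (K * Ui + 16 * x * (U * Ui)) ^ 3 := by rw [he]; ring
    _ = (K * Ui + 16 * x) ^ 3 := by rw [hU, mul_one]

theorem alg_three_a (hU : U * Ui = 1) (hη : η * ηi = 1)
    (hA : η * (K + 27 * (x * U)) = K ^ 3 * U) (he : e = K + 243 * (x * U)) :
    e ^ 3 * ηi * (K * Ui) ^ 3 = (K * Ui + 27 * x) * (K * Ui + 243 * x) ^ 3 := by
  have h1 : ηi * K ^ 3 = Ui * (K + 27 * (x * U)) := by
    calc ηi * K ^ 3 = ηi * K ^ 3 * (U * Ui) := by rw [hU, mul_one]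
      _ = ηi * (K ^ 3 * U) * Ui := by ring
      _ = (η * ηi) * (K + 27 * (x * U)) * Ui := by rw [← hA]; ring
      _ = Ui * (K + 27 * (x * U)) := by rw [hη]; ring
  calc e ^ 3 * ηi * (K * Ui) ^ 3 = e ^ 3 * (ηi * K ^ 3) * Ui ^ 3 := by ring
    _ = e ^ 3 * (Ui * (K + 27 * (x * U))) * Ui ^ 3 := by rw [h1]
    _ = (K * Ui + 27 * x * (U * Ui)) * (K * Ui + 243 * x * (U * Ui)) ^ 3 := by rw [he]; ring
    _ = (K * Ui + 27 * x) * (K * Ui + 243 * x) ^ 3 := by rw [hU, mul_one, mul_one]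

theorem alg_three_b (hU : U * Ui = 1) (hη : η * ηi = 1)
    (hB : η * (K + 27 * (x * U)) = K * U ^ 3) (he : e = K + 3 * (x * U)) :
    e ^ 3 * ηi * (K * Ui) = (K * Ui + 27 * x) * (K * Ui + 3 * x) ^ 3 := by
  have h1 : ηi * K = Ui ^ 3 * (K + 27 * (x * U)) := by
    calc ηi * K = ηi * K * (U * Ui) ^ 3 := by rw [hU, one_pow, mul_one]
      _ = ηi * (K * U ^ 3) * Ui ^ 3 := by ring
      _ = (η * ηi) * (K + 27 * (x * U)) * Ui ^ 3 := by rw [← hB]; ring
      _ = Ui ^ 3 * (K + 27 * (x * U)) := by rw [hη]; ring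
  calc e ^ 3 * ηi * (K * Ui) = e ^ 3 * (ηi * K) * Ui := by ring
    _ = e ^ 3 * (Ui ^ 3 * (K + 27 * (x * U))) * Ui := by rw [h1]
    _ = (K * Ui + 27 * x * (U * Ui)) * (K * Ui + 3 * x * (U * Ui)) ^ 3 := by rw [he]; ring
    _ = (K * Ui + 27 * x) * (K * Ui + 3 * x) ^ 3 := by rw [hU, mul_one, mul_one]

end Algebra

/-! ### the unit parts of `H2`, `H3` -/

/-- `H2 = X * U2` -/
noncomputable def U2 : PowerSeries ℤ := PowerSeries.mk fun n => coeff (n + 1) H2

/-- `H3 = X * U3` -/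
noncomputable def U3 : PowerSeries ℤ := PowerSeries.mk fun n => coeff (n + 1) H3

theorem coeff_zero_H2 : coeff 0 H2 = 0 := by
  rw [← cl_getD 6 H2 (by norm_num : 0 < 6), cl_H2]; rfl

theorem coeff_one_H2 : coeff 1 H2 = 1 := by
  rw [← cl_getD 6 H2 (by norm_num : 1 < 6), cl_H2]; rfl

theorem coeff_zero_H3 : coeff 0 H3 = 0 := by
  rw [← cl_getD 6 H3 (by norm_num : 0 < 6), cl_H3]; rfl

theorem coeff_one_H3 : coeff 1 H3 = 1 := by
  rw [← cl_getD 6 H3 (by norm_num : 1 < 6), cl_H3]; rfl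

theorem H2_eq : H2 = X * U2 := by
  have h := eq_X_mul_shift_add_const H2
  rw [← coeff_zero_eq_constantCoeff_apply, coeff_zero_H2, map_zero, add_zero] at h
  exact h

theorem H3_eq : H3 = X * U3 := by
  have h := eq_X_mul_shift_add_const H3
  rw [← coeff_zero_eq_constantCoeff_apply, coeff_zero_H3, map_zero, add_zero] at h
  exact h

theorem constantCoeff_U2 : constantCoeff U2 = 1 := by
  rw [← coeff_zero_eq_constantCoeff_apply, U2, coeff_mk, zero_add, coeff_one_H2]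

theorem constantCoeff_U3 : constantCoeff U3 = 1 := by
  rw [← coeff_zero_eq_constantCoeff_apply, U3, coeff_mk, zero_add, coeff_one_H3]

noncomputable def U2inv : PowerSeries ℤ := U2.invOfUnit 1
noncomputable def U3inv : PowerSeries ℤ := U3.invOfUnit 1

theorem U2_mul_inv : U2 * U2inv = 1 :=
  mul_invOfUnit _ _ (by rw [constantCoeff_U2]; rfl)

theorem U3_mul_inv : U3 * U3inv = 1 :=
  mul_invOfUnit _ _ (by rw [constantCoeff_U3]; rfl)

/-- `t₂ = X⁻¹ T2` -/
noncomputable def T2 : PowerSeries ℤ := K2 * U2inv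

/-- `t₃ = X⁻¹ T3` -/
noncomputable def T3 : PowerSeries ℤ := K3 * U3inv

theorem constantCoeff_K2 : constantCoeff K2 = 1 := by
  rw [← coeff_zero_eq_constantCoeff_apply, ← cl_getD 6 K2 (by norm_num : 0 < 6), cl_K2]; rfl

theorem constantCoeff_K3 : constantCoeff K3 = 1 := by
  rw [← coeff_zero_eq_constantCoeff_apply, ← cl_getD 6 K3 (by norm_num : 0 < 6), cl_K3]; rfl

theorem constantCoeff_U2inv : constantCoeff U2inv = 1 := by
  have h := congrArg (constantCoeff (R := ℤ)) U2_mul_inv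
  rwa [map_mul, constantCoeff_U2, one_mul, map_one] at h

theorem constantCoeff_U3inv : constantCoeff U3inv = 1 := by
  have h := congrArg (constantCoeff (R := ℤ)) U3_mul_inv
  rwa [map_mul, constantCoeff_U3, one_mul, map_one] at h

theorem constantCoeff_T2 : constantCoeff T2 = 1 := by
  rw [T2, map_mul, constantCoeff_K2, constantCoeff_U2inv, one_mul]

theorem constantCoeff_T3 : constantCoeff T3 = 1 := by
  rw [T3, map_mul, constantCoeff_K3, constantCoeff_U3inv, one_mul]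

/-! ### the identities in `ℤ⟦X⟧` -/

theorem eta_eq_two : dedekindEtaUnit = U2 * K2 ^ 2 := by
  have h := delta_eq_two
  rw [H2_eq, mul_assoc] at h
  exact mul_left_cancel₀ X_ne_zero h

theorem V2_eta_eq : V2 dedekindEtaUnit = U2 ^ 2 * K2 := by
  have h := delta_two_eq
  rw [H2_eq, mul_pow, mul_assoc] at h
  exact mul_left_cancel₀ (pow_ne_zero 2 X_ne_zero) h

theorem eta_eq_three : dedekindEtaUnit * (K3 + 27 * (X * U3)) = K3 ^ 3 * U3 := by
  have h := delta_eq_three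
  rw [H3_eq, mul_assoc, ← mul_assoc (K3 ^ 3), mul_comm (K3 ^ 3) X, mul_assoc X] at h
  exact mul_left_cancel₀ X_ne_zero h

theorem V3_eta_eq : V3 dedekindEtaUnit * (K3 + 27 * (X * U3)) = K3 * U3 ^ 3 := by
  have h := delta_three_eq
  rw [H3_eq, mul_assoc, mul_pow, ← mul_assoc K3, mul_comm K3 (X ^ 3), mul_assoc (X ^ 3)] at h
  exact mul_left_cancel₀ (pow_ne_zero 3 X_ne_zero) h

theorem V2_jNum : V2 jNum = V2 eisenstein4 ^ 3 * V2 dedekindEtaUnitInv := by
  rw [jNum, map_mul, map_pow]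

theorem V3_jNum : V3 jNum = V3 eisenstein4 ^ 3 * V3 dedekindEtaUnitInv := by
  rw [jNum, map_mul, map_pow]

/-- `j t₂² = (t₂ + 256)³`, cleared of `X⁻³` -/
theorem ps_two_a : jNum * T2 ^ 2 = (T2 + 256 * X) ^ 3 := by
  rw [jNum, T2]
  exact alg_two_a eisenstein4 K2 U2 U2inv dedekindEtaUnit dedekindEtaUnitInv X U2_mul_inv
    dedekindEtaUnit_mul_inv eta_eq_two (by rw [eisenstein4_eq_two, H2_eq])

/-- `j(q²) t₂ = (t₂ + 16)³`, cleared of `X⁻³` -/
theorem ps_two_b : V2 jNum * T2 = (T2 + 16 * X) ^ 3 := by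
  rw [V2_jNum, T2]
  refine alg_two_b (V2 eisenstein4) K2 U2 U2inv (V2 dedekindEtaUnit) (V2 dedekindEtaUnitInv) X
    U2_mul_inv ?_ V2_eta_eq (by rw [V2_eisenstein4, H2_eq])
  rw [← map_mul, dedekindEtaUnit_mul_inv, map_one]

/-- `j t₃³ = (t₃ + 27)(t₃ + 243)³`, cleared of `X⁻⁴` -/
theorem ps_three_a : jNum * T3 ^ 3 = (T3 + 27 * X) * (T3 + 243 * X) ^ 3 := by
  rw [jNum, T3]
  exact alg_three_a eisenstein4 K3 U3 U3inv dedekindEtaUnit dedekindEtaUnitInv X U3_mul_inv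
    dedekindEtaUnit_mul_inv eta_eq_three (by rw [eisenstein4_eq_three, H3_eq])

/-- `j(q³) t₃ = (t₃ + 27)(t₃ + 3)³`, cleared of `X⁻⁴` -/
theorem ps_three_b : V3 jNum * T3 = (T3 + 27 * X) * (T3 + 3 * X) ^ 3 := by
  rw [V3_jNum, T3]
  refine alg_three_b (V3 eisenstein4) K3 U3 U3inv (V3 dedekindEtaUnit) (V3 dedekindEtaUnitInv) X
    U3_mul_inv ?_ V3_eta_eq (by rw [V3_eisenstein4, H3_eq])
  rw [← map_mul, dedekindEtaUnit_mul_inv, map_one]

/-! ### Laurent series over an arbitrary commutative ring -/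

section Laurent

variable (R : Type*) [CommRing R]

/-- `ℤ⟦X⟧ → R⸨X⸩` -/
noncomputable def lz : PowerSeries ℤ →+* LaurentSeries R :=
  (HahnSeries.ofPowerSeries ℤ R).comp (PowerSeries.map (Int.castRingHom R))

theorem lz_apply (P : PowerSeries ℤ) :
    lz R P = HahnSeries.ofPowerSeries ℤ R (P.map (Int.castRingHom R)) := rfl

/-- `q⁻¹` -/
noncomputable def qinv : LaurentSeries R := HahnSeries.single (-1 : ℤ) 1

theorem qinv_mul_lz_X : qinv R * lz R X = 1 := by
  rw [lz_apply, map_X, HahnSeries.ofPowerSeries_X, qinv, HahnSeries.single_mul_single]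
  simp

theorem jqModC_eq : jqModC R = qinv R * lz R jNum := rfl

theorem qExpand_qinv (d : ℕ) [NeZero d] : qExpand R d (qinv R) = qinv R ^ d := by
  rw [qinv, qExpand_single, HahnSeries.single_pow, one_pow]
  congr 1

theorem qExpand_lz (d : ℕ) [NeZero d] (P : PowerSeries ℤ) :
    qExpand R d (lz R P) = lz R (PowerSeries.expand d (NeZero.ne d) P) := by
  rw [lz_apply, lz_apply, Fermat.Agent.S28.qExpand_ofPowerSeries, map_expand]

/-- the Hauptmodul of `Γ₀(2)`: `q⁻¹ - 24 + 276 q - …` -/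
noncomputable def tTwo : LaurentSeries R := qinv R * lz R T2

/-- the Hauptmodul of `Γ₀(3)`: `q⁻¹ - 12 + 54 q - …` -/
noncomputable def tThree : LaurentSeries R := qinv R * lz R T3

theorem tTwo_def : tTwo R = HahnSeries.single (-1 : ℤ) 1 *
    HahnSeries.ofPowerSeries ℤ R (T2.map (Int.castRingHom R)) := rfl

theorem tThree_def : tThree R = HahnSeries.single (-1 : ℤ) 1 *
    HahnSeries.ofPowerSeries ℤ R (T3.map (Int.castRingHom R)) := rfl

/-- `j · t₂² = (t₂ + 256)³` -/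
theorem jq_mul_tTwo_sq : jqModC R * tTwo R ^ 2 = (tTwo R + 256) ^ 3 := by
  have key : lz R jNum * lz R T2 ^ 2 = (lz R T2 + 256 * lz R X) ^ 3 := by
    rw [← map_pow, ← map_mul, ps_two_a, map_pow, map_add, map_mul, map_ofNat]
  have hX := qinv_mul_lz_X R
  rw [jqModC_eq, tTwo]
  calc qinv R * lz R jNum * (qinv R * lz R T2) ^ 2
      = qinv R ^ 3 * (lz R jNum * lz R T2 ^ 2) := by ring
    _ = qinv R ^ 3 * (lz R T2 + 256 * lz R X) ^ 3 := by rw [key]
    _ = (qinv R * lz R T2 + 256 * (qinv R * lz R X)) ^ 3 := by ring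
    _ = (qinv R * lz R T2 + 256) ^ 3 := by rw [hX, mul_one]

/-- `j(q²) · t₂ = (t₂ + 16)³` -/
theorem jq2_mul_tTwo : qExpand R 2 (jqModC R) * tTwo R = (tTwo R + 16) ^ 3 := by
  have key : lz R (V2 jNum) * lz R T2 = (lz R T2 + 16 * lz R X) ^ 3 := by
    rw [← map_mul, ps_two_b, map_pow, map_add, map_mul, map_ofNat]
  have hX := qinv_mul_lz_X R
  rw [jqModC_eq, tTwo, map_mul, qExpand_qinv, qExpand_lz]
  calc qinv R ^ 2 * lz R (V2 jNum) * (qinv R * lz R T2)
      = qinv R ^ 3 * (lz R (V2 jNum) * lz R T2) := by ring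
    _ = qinv R ^ 3 * (lz R T2 + 16 * lz R X) ^ 3 := by rw [key]
    _ = (qinv R * lz R T2 + 16 * (qinv R * lz R X)) ^ 3 := by ring
    _ = (qinv R * lz R T2 + 16) ^ 3 := by rw [hX, mul_one]

/-- `j · t₃³ = (t₃ + 27)(t₃ + 243)³` -/
theorem jq_mul_tThree_cube :
    jqModC R * tThree R ^ 3 = (tThree R + 27) * (tThree R + 243) ^ 3 := by
  have key : lz R jNum * lz R T3 ^ 3 = (lz R T3 + 27 * lz R X) * (lz R T3 + 243 * lz R X) ^ 3 := by
    rw [← map_pow, ← map_mul, ps_three_a, map_mul, map_pow, map_add, map_add, map_mul, map_mul,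
      map_ofNat, map_ofNat]
  have hX := qinv_mul_lz_X R
  rw [jqModC_eq, tThree]
  calc qinv R * lz R jNum * (qinv R * lz R T3) ^ 3
      = qinv R ^ 4 * (lz R jNum * lz R T3 ^ 3) := by ring
    _ = qinv R ^ 4 * ((lz R T3 + 27 * lz R X) * (lz R T3 + 243 * lz R X) ^ 3) := by rw [key]
    _ = (qinv R * lz R T3 + 27 * (qinv R * lz R X)) *
          (qinv R * lz R T3 + 243 * (qinv R * lz R X)) ^ 3 := by ring
    _ = (qinv R * lz R T3 + 27) * (qinv R * lz R T3 + 243) ^ 3 := by rw [hX, mul_one, mul_one]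

/-- `j(q³) · t₃ = (t₃ + 27)(t₃ + 3)³` -/
theorem jq3_mul_tThree :
    qExpand R 3 (jqModC R) * tThree R = (tThree R + 27) * (tThree R + 3) ^ 3 := by
  have key : lz R (V3 jNum) * lz R T3 = (lz R T3 + 27 * lz R X) * (lz R T3 + 3 * lz R X) ^ 3 := by
    rw [← map_mul, ps_three_b, map_mul, map_pow, map_add, map_add, map_mul, map_mul,
      map_ofNat, map_ofNat]
  have hX := qinv_mul_lz_X R
  rw [jqModC_eq, tThree, map_mul, qExpand_qinv, qExpand_lz]
  calc qinv R ^ 3 * lz R (V3 jNum) * (qinv R * lz R T3)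
      = qinv R ^ 4 * (lz R (V3 jNum) * lz R T3) := by ring
    _ = qinv R ^ 4 * ((lz R T3 + 27 * lz R X) * (lz R T3 + 3 * lz R X) ^ 3) := by rw [key]
    _ = (qinv R * lz R T3 + 27 * (qinv R * lz R X)) *
          (qinv R * lz R T3 + 3 * (qinv R * lz R X)) ^ 3 := by ring
    _ = (qinv R * lz R T3 + 27) * (qinv R * lz R T3 + 3) ^ 3 := by rw [hX, mul_one, mul_one]

/-! ### base change and leading terms -/

variable {R} in
theorem coeffMap_lz {S : Type*} [CommRing S] (f : R →+* S) (P : PowerSeries ℤ) :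
    coeffMap f (lz R P) = lz S P := by
  rw [lz_apply, coeffMap_ofPowerSeries, lz_apply,
    ← RingHom.comp_apply (PowerSeries.map f) (PowerSeries.map (Int.castRingHom R)),
    ← PowerSeries.map_comp, RingHom.ext_int (f.comp (Int.castRingHom R)) (Int.castRingHom S)]

variable {R} in
theorem coeffMap_qinv {S : Type*} [CommRing S] (f : R →+* S) : coeffMap f (qinv R) = qinv S := by
  rw [qinv, coeffMap_single, map_one, qinv]

variable {R} in
theorem coeffMap_tTwo {S : Type*} [CommRing S] (f : R →+* S) : coeffMap f (tTwo R) = tTwo S := by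
  rw [tTwo, map_mul, coeffMap_qinv, coeffMap_lz, tTwo]

variable {R} in
theorem coeffMap_tThree {S : Type*} [CommRing S] (f : R →+* S) :
    coeffMap f (tThree R) = tThree S := by
  rw [tThree, map_mul, coeffMap_qinv, coeffMap_lz, tThree]

theorem coeff_qinv_mul_lz (P : PowerSeries ℤ) (n : ℤ) :
    (qinv R * lz R P).coeff n = (lz R P).coeff (n + 1) := by
  have h := HahnSeries.coeff_single_mul_add (r := (1 : R)) (x := lz R P) (a := n + 1) (b := (-1 : ℤ))
  rw [one_mul] at h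
  rw [qinv, ← h]
  congr 1
  ring

theorem coeff_lz_natCast (P : PowerSeries ℤ) (n : ℕ) :
    (lz R P).coeff (n : ℤ) = ((coeff n P : ℤ) : R) := by
  rw [lz_apply, HahnSeries.ofPowerSeries_apply_coeff, PowerSeries.coeff_map]
  rfl

theorem coeff_lz_neg (P : PowerSeries ℤ) {n : ℤ} (hn : n < 0) : (lz R P).coeff n = 0 := by
  rw [lz_apply, ofPowerSeries_coeff_of_neg _ hn]

/-- the leading coefficient of `t₂` is `1` (at `q⁻¹`) -/
theorem coeff_tTwo_neg_one : (tTwo R).coeff (-1) = 1 := by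
  rw [tTwo, coeff_qinv_mul_lz]
  have := coeff_lz_natCast R T2 0
  simp only [Nat.cast_zero] at this
  rw [show (-1 : ℤ) + 1 = 0 by norm_num, this, coeff_zero_eq_constantCoeff_apply, constantCoeff_T2,
    Int.cast_one]

theorem coeff_tThree_neg_one : (tThree R).coeff (-1) = 1 := by
  rw [tThree, coeff_qinv_mul_lz]
  have := coeff_lz_natCast R T3 0
  simp only [Nat.cast_zero] at this
  rw [show (-1 : ℤ) + 1 = 0 by norm_num, this, coeff_zero_eq_constantCoeff_apply, constantCoeff_T3,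
    Int.cast_one]

theorem coeff_tTwo_of_lt {n : ℤ} (hn : n < -1) : (tTwo R).coeff n = 0 := by
  rw [tTwo, coeff_qinv_mul_lz, coeff_lz_neg R T2 (by omega)]

theorem coeff_tThree_of_lt {n : ℤ} (hn : n < -1) : (tThree R).coeff n = 0 := by
  rw [tThree, coeff_qinv_mul_lz, coeff_lz_neg R T3 (by omega)]

theorem tTwo_ne_zero [Nontrivial R] : tTwo R ≠ 0 := by
  intro h
  have := coeff_tTwo_neg_one R
  rw [h, HahnSeries.coeff_zero] at this
  exact zero_ne_one this

theorem tThree_ne_zero [Nontrivial R] : tThree R ≠ 0 := by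
  intro h
  have := coeff_tThree_neg_one R
  rw [h, HahnSeries.coeff_zero] at this
  exact zero_ne_one this

end Laurent

end Fermat.Agent.GJ.J1.Haupt
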