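import Mathlib
import Fermat.Agent.GJ.J1.Haupt.Laurent
import Fermat.Agent.GJ.HauptMem.Field

/-!
# GATE-J / J1 / M-HAUPT (helper32): `t₂ ∈ F₂`, `t₃ ∈ F₃`, `K(t_M) = F_M` over every field

Instantiation of helper73's hypothesis-driven `GJ/HauptMem` with the concrete Hauptmoduln
`tTwo K`, `tThree K` of `Laurent.lean`.
-/

set_option autoImplicit false

namespace Fermat.Agent.GJ.J1.Haupt

open ModularCurve

variable (K : Type*) [Field K]

theorem tTwo_mem_full : tTwo K ∈ modularFunctionFieldFullC K 2 :=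
  Fermat.Agent.GJ.HauptMem.mem_full_two (tTwo K) (tTwo_ne_zero K) (jq_mul_tTwo_sq K)
    (jq2_mul_tTwo K)

theorem tThree_mem_full : tThree K ∈ modularFunctionFieldFullC K 3 :=
  Fermat.Agent.GJ.HauptMem.mem_full_three (tThree K) (tThree_ne_zero K) (jq_mul_tThree_cube K)
    (jq3_mul_tThree K)

theorem tTwo_mem_full_of_dvd (N : ℕ) [NeZero N] (hN : 2 ∣ N) :
    tTwo K ∈ modularFunctionFieldFullC K N :=
  Fermat.Agent.GJ.HauptMem.mem_full_of_two_dvd (tTwo K) (tTwo_ne_zero K) (jq_mul_tTwo_sq K)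
    (jq2_mul_tTwo K) N hN

theorem tThree_mem_full_of_dvd (N : ℕ) [NeZero N] (hN : 3 ∣ N) :
    tThree K ∈ modularFunctionFieldFullC K N :=
  Fermat.Agent.GJ.HauptMem.mem_full_of_three_dvd (tThree K) (tThree_ne_zero K)
    (jq_mul_tThree_cube K) (jq3_mul_tThree K) N hN

theorem adjoin_tTwo : IntermediateField.adjoin K {tTwo K} = modularFunctionFieldFullC K 2 :=
  Fermat.Agent.GJ.HauptMem.adjoin_eq_full_two (tTwo K) (tTwo_ne_zero K) (jq_mul_tTwo_sq K)
    (jq2_mul_tTwo K)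

theorem adjoin_tThree : IntermediateField.adjoin K {tThree K} = modularFunctionFieldFullC K 3 :=
  Fermat.Agent.GJ.HauptMem.adjoin_eq_full_three (tThree K) (tThree_ne_zero K)
    (jq_mul_tThree_cube K) (jq3_mul_tThree K)

end Fermat.Agent.GJ.J1.Haupt
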