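import Mathlib
import Fermat.Agent.GJ.J1.Haupt.Laurent
import Fermat.Agent.S28.IntegralDescent

/-!
# GATE-J / J1 / M-HAUPT (helper32): `t₂`, `t₃` are transcendental over every field of constants
-/

set_option autoImplicit false

namespace Fermat.Agent.GJ.J1.Haupt

open ModularCurve

variable (K : Type*) [Field K]

theorem tTwo_transcendental : Transcendental K (tTwo K) := by
  intro halg
  apply Fermat.Agent.S28.IntegralDescent.transcendental_jqModC K
  have ht : tTwo K ≠ 0 := tTwo_ne_zero K
  have hj : jqModC K = (tTwo K + 256) ^ 3 / tTwo K ^ 2 := by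
    rw [eq_div_iff (pow_ne_zero 2 ht)]; exact jq_mul_tTwo_sq K
  have hmem : tTwo K ∈ algebraicClosure K (LaurentSeries K) :=
    mem_algebraicClosure_iff.mpr halg
  rw [hj]
  exact mem_algebraicClosure_iff.mp
    (div_mem (pow_mem (add_mem hmem (ofNat_mem _ 256)) 3) (pow_mem hmem 2))

theorem tThree_transcendental : Transcendental K (tThree K) := by
  intro halg
  apply Fermat.Agent.S28.IntegralDescent.transcendental_jqModC K
  have ht : tThree K ≠ 0 := tThree_ne_zero K
  have hj : jqModC K = (tThree K + 27) * (tThree K + 243) ^ 3 / tThree K ^ 3 := by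
    rw [eq_div_iff (pow_ne_zero 3 ht)]; exact jq_mul_tThree_cube K
  have hmem : tThree K ∈ algebraicClosure K (LaurentSeries K) :=
    mem_algebraicClosure_iff.mpr halg
  rw [hj]
  exact mem_algebraicClosure_iff.mp
    (div_mem (mul_mem (add_mem hmem (ofNat_mem _ 27)) (pow_mem (add_mem hmem (ofNat_mem _ 243)) 3))
      (pow_mem hmem 3))

end Fermat.Agent.GJ.J1.Haupt
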