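import Mathlib
import Fermat.Agent.GJ.J1.Haupt.Mem
import Fermat.Agent.GJ.J1.Haupt.Trans
import Fermat.Agent.GJ.J1.FibreFinal
import Fermat.Agent.S24_helper62.FieldGen

/-!
# GATE-J / J1 / M-HAUPT (helper32): the Hauptmoduln as ELEMENTS of the function fields

* generic fibre: `tTwoF N h : FN N` (`2 ∣ N`), `tThreeF N h : FN N` (`3 ∣ N`), elements of the
  S24 function field `FN N = modularFunctionFieldBar N` over `ℚ̄`, with
  `jF N * tTwoF ^ 2 = (tTwoF + 256) ^ 3`, `jF N * tThreeF ^ 3 = (tThreeF + 27) * (tThreeF + 243) ^ 3`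
  (the hypotheses `hj` of `GJ/AuxLevel/Branch.lean`), transcendental, `IsGen`;
* special fibre: `tTwoFib k N h`, `tThreeFib k N h : modularFunctionFieldFullC k N` for every field
  `k`, same identities against `jFib k N`, transcendental, `IsGen` (when `k` receives a ring
  homomorphism from a valuation subring of `ℚ̄`);
* the integral lifts `tTwo A`, `tThree A` with `coeffMap A.subtype`, `coeffMap π` compatibilities.
-/

set_option autoImplicit false

noncomputable section

namespace Fermat.Agent.GJ.J1.Haupt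

open ModularCurve Fermat.Agent.S24 Fermat.Agent.GJ.FibreCurve

variable (N : ℕ) [NeZero N]

/-! ### generic fibre -/

theorem tTwo_mem_bar (h : 2 ∣ N) : tTwo Kbar ∈ modularFunctionFieldBar N := by
  rw [Fermat.Agent.S24_helper62.modularFunctionFieldBar_eq]
  exact tTwo_mem_full_of_dvd Kbar N h

theorem tThree_mem_bar (h : 3 ∣ N) : tThree Kbar ∈ modularFunctionFieldBar N := by
  rw [Fermat.Agent.S24_helper62.modularFunctionFieldBar_eq]
  exact tThree_mem_full_of_dvd Kbar N h

/-- `t₂` as an element of the function field of `X₀(N)` over `ℚ̄`, `2 ∣ N` -/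
def tTwoF (h : 2 ∣ N) : FN N := ⟨tTwo Kbar, tTwo_mem_bar N h⟩

/-- `t₃` as an element of the function field of `X₀(N)` over `ℚ̄`, `3 ∣ N` -/
def tThreeF (h : 3 ∣ N) : FN N := ⟨tThree Kbar, tThree_mem_bar N h⟩

@[simp] theorem coe_tTwoF (h : 2 ∣ N) : ((tTwoF N h : FN N) : LaurentSeries Kbar) = tTwo Kbar := rfl

@[simp] theorem coe_tThreeF (h : 3 ∣ N) :
    ((tThreeF N h : FN N) : LaurentSeries Kbar) = tThree Kbar := rfl

/-- the hypothesis `hj` of `GJ/AuxLevel/Branch.lean` (level 2) -/
theorem jF_mul_tTwoF_sq (h : 2 ∣ N) : jF N * tTwoF N h ^ 2 = (tTwoF N h + 256) ^ 3 := by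
  apply Subtype.ext
  push_cast
  rw [Degree.coe_jF', coe_tTwoF]
  exact jq_mul_tTwo_sq Kbar

/-- the hypothesis `hj` of `GJ/AuxLevel/Branch.lean` (level 3) -/
theorem jF_mul_tThreeF_cube (h : 3 ∣ N) :
    jF N * tThreeF N h ^ 3 = (tThreeF N h + 27) * (tThreeF N h + 243) ^ 3 := by
  apply Subtype.ext
  push_cast
  rw [Degree.coe_jF', coe_tThreeF]
  exact jq_mul_tThree_cube Kbar

theorem transcendental_tTwoF (h : 2 ∣ N) : Transcendental Kbar (tTwoF N h) := by
  intro halg
  exact tTwo_transcendental Kbar (IsAlgebraic.algHom (modularFunctionFieldBar N).val halg)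

theorem transcendental_tThreeF (h : 3 ∣ N) : Transcendental Kbar (tThreeF N h) := by
  intro halg
  exact tThree_transcendental Kbar (IsAlgebraic.algHom (modularFunctionFieldBar N).val halg)

theorem isGen_tTwoF (h : 2 ∣ N) : IsGen Kbar (tTwoF N h) :=
  haveI : IsGen Kbar (jF N) := Fermat.Agent.S24_helper62.isGen_jF N
  IsGen.of_transcendental (jF N) (transcendental_tTwoF N h)

theorem isGen_tThreeF (h : 3 ∣ N) : IsGen Kbar (tThreeF N h) :=
  haveI : IsGen Kbar (jF N) := Fermat.Agent.S24_helper62.isGen_jF N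
  IsGen.of_transcendental (jF N) (transcendental_tThreeF N h)

/-! ### special fibre -/

section Fibre

variable (k : Type*) [Field k]

/-- `t̃₂` as an element of the special-fibre field, `2 ∣ N` -/
def tTwoFib (h : 2 ∣ N) : modularFunctionFieldFullC k N := ⟨tTwo k, tTwo_mem_full_of_dvd k N h⟩

/-- `t̃₃` as an element of the special-fibre field, `3 ∣ N` -/
def tThreeFib (h : 3 ∣ N) : modularFunctionFieldFullC k N :=
  ⟨tThree k, tThree_mem_full_of_dvd k N h⟩

@[simp] theorem coe_tTwoFib (h : 2 ∣ N) :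
    ((tTwoFib N k h : modularFunctionFieldFullC k N) : LaurentSeries k) = tTwo k := rfl

@[simp] theorem coe_tThreeFib (h : 3 ∣ N) :
    ((tThreeFib N k h : modularFunctionFieldFullC k N) : LaurentSeries k) = tThree k := rfl

theorem jFib_mul_tTwoFib_sq (h : 2 ∣ N) :
    jFib k N * tTwoFib N k h ^ 2 = (tTwoFib N k h + 256) ^ 3 := by
  apply Subtype.ext
  push_cast
  exact jq_mul_tTwo_sq k

theorem jFib_mul_tThreeFib_cube (h : 3 ∣ N) :
    jFib k N * tThreeFib N k h ^ 3 = (tThreeFib N k h + 27) * (tThreeFib N k h + 243) ^ 3 := by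
  apply Subtype.ext
  push_cast
  exact jq_mul_tThree_cube k

theorem transcendental_tTwoFib (h : 2 ∣ N) : Transcendental k (tTwoFib N k h) := by
  intro halg
  exact tTwo_transcendental k (IsAlgebraic.algHom (modularFunctionFieldFullC k N).val halg)

theorem transcendental_tThreeFib (h : 3 ∣ N) : Transcendental k (tThreeFib N k h) := by
  intro halg
  exact tThree_transcendental k (IsAlgebraic.algHom (modularFunctionFieldFullC k N).val halg)

variable {k}

theorem isGen_tTwoFib (A : ValuationSubring Kbar) (π : A →+* k) (h : 2 ∣ N) :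
    IsGen k (tTwoFib N k h) :=
  haveI : IsGen k (jFib k N) := isGen_jFib N A π
  IsGen.of_transcendental (jFib k N) (transcendental_tTwoFib N k h)

theorem isGen_tThreeFib (A : ValuationSubring Kbar) (π : A →+* k) (h : 3 ∣ N) :
    IsGen k (tThreeFib N k h) :=
  haveI : IsGen k (jFib k N) := isGen_jFib N A π
  IsGen.of_transcendental (jFib k N) (transcendental_tThreeFib N k h)

end Fibre

/-! ### the integral lifts -/

section Lift

variable {k : Type*} [Field k] (A : ValuationSubring Kbar) (π : A →+* k)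

theorem coeffMap_subtype_tTwo : coeffMap A.subtype (tTwo A) = tTwo Kbar := coeffMap_tTwo _

theorem coeffMap_pi_tTwo : coeffMap π (tTwo A) = tTwo k := coeffMap_tTwo _

theorem coeffMap_subtype_tThree : coeffMap A.subtype (tThree A) = tThree Kbar := coeffMap_tThree _

theorem coeffMap_pi_tThree : coeffMap π (tThree A) = tThree k := coeffMap_tThree _

end Lift

end Fermat.Agent.GJ.J1.Haupt
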