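import Mathlib
import Fermat.Agent.GJ.J1.Haupt.Inst
import Fermat.Agent.GJ.J1.Val.GaussRedData

/-!
# GATE-J / J1 (C2) (helper32): the charts `j`, `t₂`, `t₃` against the concrete reduction datum

`R := Val.redDataBar N A` (helper45), `A` a valuation subring of `ℚ̄`, `k` its residue field.  For
`t ∈ {jF N, tTwoF N h, tThreeF N h}`:

* `t ∈ R.Rw`, `R.red t` is (as a Laurent series over `k`) `jqModC k`, `tTwo k`, `tThree k`;
* `R.IsGaussChart t`;
* the order of `R.red t` in `k((q))` is `-1` (so no prime divides it);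
* the chart relations on the special fibre, inside `FresBar N A`;
* the branch values `1728`, `-64`, `-27` are units mod `ℓ` for `ℓ ∤ 6`, `ℓ = 3`, `ℓ = 2`.
-/

set_option autoImplicit false

noncomputable section

namespace Fermat.Agent.GJ.J1.Haupt

open ModularCurve Fermat.Agent.S24 Fermat.Agent.GJ.J1 Fermat.Agent.GJ.J1.Val

variable (N : ℕ) [NeZero N] (A : ValuationSubring Kbar)

local notation "𝕜" => IsLocalRing.ResidueField A

/-! ### orders -/

theorem order_eq_neg_one_of_coeff {κ : Type*} [Field κ] {y : LaurentSeries κ}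
    (h1 : y.coeff (-1) = 1) (h2 : ∀ n : ℤ, n < -1 → y.coeff n = 0) : y.order = -1 := by
  have hne : y ≠ 0 := by
    intro h
    rw [h, HahnSeries.coeff_zero] at h1
    exact zero_ne_one h1
  apply le_antisymm
  · exact HahnSeries.order_le_of_coeff_ne_zero (by rw [h1]; exact one_ne_zero)
  · by_contra hlt
    rw [not_le] at hlt
    exact hne (HahnSeries.coeff_order_eq_zero.mp (h2 _ hlt))

theorem order_tTwo (κ : Type*) [Field κ] : (tTwo κ).order = -1 :=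
  order_eq_neg_one_of_coeff (coeff_tTwo_neg_one κ) fun _ hn => coeff_tTwo_of_lt κ hn

theorem order_tThree (κ : Type*) [Field κ] : (tThree κ).order = -1 :=
  order_eq_neg_one_of_coeff (coeff_tThree_neg_one κ) fun _ hn => coeff_tThree_of_lt κ hn

/-! ### the three charts are integral -/

theorem jF_eq_emb : (jF N : FN N) = ⟨emb A (jqModC A), by
    have := emb_gen_mem N A (one_dvd N)
    rwa [qExpand_one_apply] at this⟩ := by
  apply Subtype.ext
  rw [Degree.coe_jF']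
  exact (coeffMap_jqModC _).symm

theorem emb_tTwo_mem (h : 2 ∣ N) : emb A (tTwo A) ∈ modularFunctionFieldBar N := by
  rw [emb, coeffMap_tTwo]; exact tTwo_mem_bar N h

theorem emb_tThree_mem (h : 3 ∣ N) : emb A (tThree A) ∈ modularFunctionFieldBar N := by
  rw [emb, coeffMap_tThree]; exact tThree_mem_bar N h

theorem tTwoF_eq_emb (h : 2 ∣ N) : tTwoF N h = ⟨emb A (tTwo A), emb_tTwo_mem N A h⟩ :=
  Subtype.ext (coeffMap_tTwo _).symm

theorem tThreeF_eq_emb (h : 3 ∣ N) : tThreeF N h = ⟨emb A (tThree A), emb_tThree_mem N A h⟩ :=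
  Subtype.ext (coeffMap_tThree _).symm

theorem jF_mem_Rw : jF N ∈ (redDataBar N A).Rw := by
  rw [jF_eq_emb N A]; exact int_mem_Rw (hGF := hasGaussFrac_bar N A) _

theorem tTwoF_mem_Rw (h : 2 ∣ N) : tTwoF N h ∈ (redDataBar N A).Rw := by
  rw [tTwoF_eq_emb N A h]; exact int_mem_Rw (hGF := hasGaussFrac_bar N A) _

theorem tThreeF_mem_Rw (h : 3 ∣ N) : tThreeF N h ∈ (redDataBar N A).Rw := by
  rw [tThreeF_eq_emb N A h]; exact int_mem_Rw (hGF := hasGaussFrac_bar N A) _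

/-! ### their reductions -/

theorem coe_red_jF :
    (((redDataBar N A).red ⟨jF N, jF_mem_Rw N A⟩ : FresBar N A) : LaurentSeries 𝕜) = jqModC 𝕜 := by
  have h1 : (⟨jF N, jF_mem_Rw N A⟩ : (redDataBar N A).Rw) =
      ⟨⟨emb A (jqModC A), _⟩, int_mem_Rw (hGF := hasGaussFrac_bar N A) (by
        have := emb_gen_mem N A (one_dvd N)
        rwa [qExpand_one_apply] at this)⟩ := Subtype.ext (jF_eq_emb N A)
  rw [h1]
  exact (redL_int (hGF := hasGaussFrac_bar N A) _).trans (coeffMap_jqModC _)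

theorem coe_red_tTwoF (h : 2 ∣ N) :
    (((redDataBar N A).red ⟨tTwoF N h, tTwoF_mem_Rw N A h⟩ : FresBar N A) : LaurentSeries 𝕜) =
      tTwo 𝕜 := by
  have h1 : (⟨tTwoF N h, tTwoF_mem_Rw N A h⟩ : (redDataBar N A).Rw) =
      ⟨⟨emb A (tTwo A), _⟩, int_mem_Rw (hGF := hasGaussFrac_bar N A) (emb_tTwo_mem N A h)⟩ := Subtype.ext (tTwoF_eq_emb N A h)
  rw [h1]
  exact (redL_int (hGF := hasGaussFrac_bar N A) (emb_tTwo_mem N A h)).trans (coeffMap_tTwo _)

theorem coe_red_tThreeF (h : 3 ∣ N) :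
    (((redDataBar N A).red ⟨tThreeF N h, tThreeF_mem_Rw N A h⟩ : FresBar N A) :
      LaurentSeries 𝕜) = tThree 𝕜 := by
  have h1 : (⟨tThreeF N h, tThreeF_mem_Rw N A h⟩ : (redDataBar N A).Rw) =
      ⟨⟨emb A (tThree A), _⟩, int_mem_Rw (hGF := hasGaussFrac_bar N A) (emb_tThree_mem N A h)⟩ :=
    Subtype.ext (tThreeF_eq_emb N A h)
  rw [h1]
  exact (redL_int (hGF := hasGaussFrac_bar N A) (emb_tThree_mem N A h)).trans (coeffMap_tThree _)

/-! ### Gauss charts -/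

theorem isGaussChart_jF : (redDataBar N A).IsGaussChart (jF N) := by
  refine ⟨jF_mem_Rw N A, Fres.transcendental_of_coe _ _ _ ?_⟩
  rw [coe_red_jF]
  exact Val.transcendental_jqModC _

theorem isGaussChart_tTwoF (h : 2 ∣ N) : (redDataBar N A).IsGaussChart (tTwoF N h) := by
  refine ⟨tTwoF_mem_Rw N A h, Fres.transcendental_of_coe _ _ _ ?_⟩
  rw [coe_red_tTwoF]
  exact tTwo_transcendental _

theorem isGaussChart_tThreeF (h : 3 ∣ N) : (redDataBar N A).IsGaussChart (tThreeF N h) := by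
  refine ⟨tThreeF_mem_Rw N A h, Fres.transcendental_of_coe _ _ _ ?_⟩
  rw [coe_red_tThreeF]
  exact tThree_transcendental _

/-! ### orders of the reduced charts -/

theorem coeff_jqModC_of_lt (κ : Type*) [CommRing κ] {n : ℤ} (hn : n < -1) :
    (jqModC κ).coeff n = 0 := by
  rw [jqModC_eq, coeff_qinv_mul_lz, coeff_lz_neg κ _ (by omega)]

theorem order_jqModC (κ : Type*) [Field κ] : (jqModC κ).order = -1 :=
  order_eq_neg_one_of_coeff (ModularCurve.coeff_jqModC_neg_one _)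
    fun _ hn => coeff_jqModC_of_lt κ hn

theorem order_red_jF :
    (((redDataBar N A).red ⟨jF N, jF_mem_Rw N A⟩ : FresBar N A) : LaurentSeries 𝕜).order = -1 := by
  rw [coe_red_jF]; exact order_jqModC _

theorem order_red_tTwoF (h : 2 ∣ N) :
    (((redDataBar N A).red ⟨tTwoF N h, tTwoF_mem_Rw N A h⟩ : FresBar N A) :
      LaurentSeries 𝕜).order = -1 := by
  rw [coe_red_tTwoF]; exact order_tTwo _

theorem order_red_tThreeF (h : 3 ∣ N) :
    (((redDataBar N A).red ⟨tThreeF N h, tThreeF_mem_Rw N A h⟩ : FresBar N A) :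
      LaurentSeries 𝕜).order = -1 := by
  rw [coe_red_tThreeF]; exact order_tThree _

/-- no prime divides `-1` -/
theorem not_dvd_neg_one {p : ℕ} (hp : p.Prime) : ¬ (p : ℤ) ∣ (-1 : ℤ) := by
  intro h
  have h1 : (p : ℤ) ∣ 1 := (dvd_neg).mp h
  have h2 : p ∣ 1 := by exact_mod_cast h1
  exact hp.one_lt.ne' (Nat.dvd_one.mp h2)

theorem not_dvd_order_red_jF {p : ℕ} (hp : p.Prime) :
    ¬ (p : ℤ) ∣
      (((redDataBar N A).red ⟨jF N, jF_mem_Rw N A⟩ : FresBar N A) : LaurentSeries 𝕜).order := by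
  rw [order_red_jF]; exact not_dvd_neg_one hp

theorem not_dvd_order_red_tTwoF (h : 2 ∣ N) {p : ℕ} (hp : p.Prime) :
    ¬ (p : ℤ) ∣
      (((redDataBar N A).red ⟨tTwoF N h, tTwoF_mem_Rw N A h⟩ : FresBar N A) :
        LaurentSeries 𝕜).order := by
  rw [order_red_tTwoF]; exact not_dvd_neg_one hp

theorem not_dvd_order_red_tThreeF (h : 3 ∣ N) {p : ℕ} (hp : p.Prime) :
    ¬ (p : ℤ) ∣
      (((redDataBar N A).red ⟨tThreeF N h, tThreeF_mem_Rw N A h⟩ : FresBar N A) :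
        LaurentSeries 𝕜).order := by
  rw [order_red_tThreeF]; exact not_dvd_neg_one hp

/-- the same with `ι := (FresBar N A).val : FresBar N A →ₐ[k] k((q))` and an arbitrary membership
proof (the shape of `hord` in `KummerRedData`) -/
theorem hord_jF {p : ℕ} (hp : p.Prime) (ht : jF N ∈ (redDataBar N A).Rw) :
    ¬ (p : ℤ) ∣ ((FresBar N A).val ((redDataBar N A).red ⟨jF N, ht⟩)).order :=
  not_dvd_order_red_jF N A hp

theorem hord_tTwoF (h : 2 ∣ N) {p : ℕ} (hp : p.Prime) (ht : tTwoF N h ∈ (redDataBar N A).Rw) :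
    ¬ (p : ℤ) ∣ ((FresBar N A).val ((redDataBar N A).red ⟨tTwoF N h, ht⟩)).order :=
  not_dvd_order_red_tTwoF N A h hp

theorem hord_tThreeF (h : 3 ∣ N) {p : ℕ} (hp : p.Prime)
    (ht : tThreeF N h ∈ (redDataBar N A).Rw) :
    ¬ (p : ℤ) ∣ ((FresBar N A).val ((redDataBar N A).red ⟨tThreeF N h, ht⟩)).order :=
  not_dvd_order_red_tThreeF N A h hp

/-! ### the chart relations on the special fibre -/

theorem red_rel_two (h : 2 ∣ N) :
    (redDataBar N A).red ⟨jF N, jF_mem_Rw N A⟩ *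
        (redDataBar N A).red ⟨tTwoF N h, tTwoF_mem_Rw N A h⟩ ^ 2 =
      ((redDataBar N A).red ⟨tTwoF N h, tTwoF_mem_Rw N A h⟩ + 256) ^ 3 := by
  have h1 : (⟨jF N, jF_mem_Rw N A⟩ : (redDataBar N A).Rw) * ⟨tTwoF N h, tTwoF_mem_Rw N A h⟩ ^ 2 =
      (⟨tTwoF N h, tTwoF_mem_Rw N A h⟩ + 256) ^ 3 := by
    apply Subtype.ext
    push_cast
    exact jF_mul_tTwoF_sq N h
  have h2 := congrArg (redDataBar N A).red h1
  simpa only [map_mul, map_pow, map_add, map_ofNat] using h2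

theorem red_rel_three (h : 3 ∣ N) :
    (redDataBar N A).red ⟨jF N, jF_mem_Rw N A⟩ *
        (redDataBar N A).red ⟨tThreeF N h, tThreeF_mem_Rw N A h⟩ ^ 3 =
      ((redDataBar N A).red ⟨tThreeF N h, tThreeF_mem_Rw N A h⟩ + 27) *
        ((redDataBar N A).red ⟨tThreeF N h, tThreeF_mem_Rw N A h⟩ + 243) ^ 3 := by
  have h1 : (⟨jF N, jF_mem_Rw N A⟩ : (redDataBar N A).Rw) *
        ⟨tThreeF N h, tThreeF_mem_Rw N A h⟩ ^ 3 =
      (⟨tThreeF N h, tThreeF_mem_Rw N A h⟩ + 27) *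
        (⟨tThreeF N h, tThreeF_mem_Rw N A h⟩ + 243) ^ 3 := by
    apply Subtype.ext
    push_cast
    exact jF_mul_tThreeF_cube N h
  have h2 := congrArg (redDataBar N A).red h1
  simpa only [map_mul, map_pow, map_add, map_ofNat] using h2

/-! ### the branch values are units at the right primes -/

section Branch

variable {N A}

theorem res_intCast (n : ℤ) : (redDataBar N A).res (n : A) = (n : 𝕜) := map_intCast _ n

theorem res_intCast_ne_zero {ℓ : ℕ} [CharP 𝕜 ℓ] {n : ℤ} (hn : ¬ (ℓ : ℤ) ∣ n) :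
    (redDataBar N A).res (n : A) ≠ 0 := by
  rw [res_intCast, Ne, CharP.intCast_eq_zero_iff 𝕜 ℓ]
  exact hn

/-- generic form: `β ∈ A` whose image in `ℚ̄` is an integer prime to `ℓ` -/
theorem res_ne_zero_of_coe_eq {ℓ : ℕ} [CharP 𝕜 ℓ] {β : A} {n : ℤ} (hβ : (β : Kbar) = (n : Kbar))
    (hn : ¬ (ℓ : ℤ) ∣ n) : (redDataBar N A).res β ≠ 0 := by
  have h1 : β = ((n : ℤ) : A) := Subtype.ext (by rw [hβ]; push_cast; rfl)
  rw [h1]
  exact res_intCast_ne_zero hn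

/-- `β = 1728` for `ℓ ∤ 6` -/
theorem res_1728_ne_zero {ℓ : ℕ} (hℓ : ℓ.Prime) [CharP 𝕜 ℓ] (h2 : ℓ ≠ 2) (h3 : ℓ ≠ 3) :
    (redDataBar N A).res ((1728 : ℤ) : A) ≠ 0 := by
  apply res_intCast_ne_zero (ℓ := ℓ)
  intro hd
  have h1 : ℓ ∣ 1728 := by exact_mod_cast hd
  have h4 : ℓ ∣ 2 ^ 6 * 3 ^ 3 := by norm_num; exact h1
  rcases (Nat.Prime.dvd_mul hℓ).mp h4 with h | h
  · exact h2 ((Nat.prime_dvd_prime_iff_eq hℓ Nat.prime_two).mp (hℓ.dvd_of_dvd_pow h))
  · exact h3 ((Nat.prime_dvd_prime_iff_eq hℓ Nat.prime_three).mp (hℓ.dvd_of_dvd_pow h))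

/-- `β = -64` for `ℓ = 3` (more generally `ℓ ≠ 2`) -/
theorem res_neg64_ne_zero {ℓ : ℕ} (hℓ : ℓ.Prime) [CharP 𝕜 ℓ] (h2 : ℓ ≠ 2) :
    (redDataBar N A).res ((-64 : ℤ) : A) ≠ 0 := by
  apply res_intCast_ne_zero (ℓ := ℓ)
  intro hd
  have h1 : (ℓ : ℤ) ∣ 64 := (dvd_neg).mp hd
  have h4 : ℓ ∣ 2 ^ 6 := by
    have : ℓ ∣ 64 := by exact_mod_cast h1
    norm_num; exact this
  exact h2 ((Nat.prime_dvd_prime_iff_eq hℓ Nat.prime_two).mp (hℓ.dvd_of_dvd_pow h4))

/-- `β = -27` for `ℓ = 2` (more generally `ℓ ≠ 3`) -/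
theorem res_neg27_ne_zero {ℓ : ℕ} (hℓ : ℓ.Prime) [CharP 𝕜 ℓ] (h3 : ℓ ≠ 3) :
    (redDataBar N A).res ((-27 : ℤ) : A) ≠ 0 := by
  apply res_intCast_ne_zero (ℓ := ℓ)
  intro hd
  have h1 : (ℓ : ℤ) ∣ 27 := (dvd_neg).mp hd
  have h4 : ℓ ∣ 3 ^ 3 := by
    have : ℓ ∣ 27 := by exact_mod_cast h1
    norm_num; exact this
  exact h3 ((Nat.prime_dvd_prime_iff_eq hℓ Nat.prime_three).mp (hℓ.dvd_of_dvd_pow h4))

end Branch

end Fermat.Agent.GJ.J1.Haupt
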