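import Mathlib
import Fermat.Agent.GJ.J1.Haupt.ChartRed
import Fermat.Agent.GJ.J1.DifferentBranch
import Fermat.Agent.GJ.AuxLevel.BranchFN
import Fermat.Agent.GJ.AuxLevel.DegChart

/-!
# GATE-J / J1 (C1)+(C2)+(C4) glue (helper32): the chart package for `K18Modular`

For a prime `ℓ ∤ N` and a valuation subring `A` of `ℚ̄` with residue characteristic `ℓ` we exhibit
a level `N'` (`N ∣ N'`, `ℓ ∤ N'`) and a chart `t ∈ F_{N'}` with a branch value `β ∈ A` such that all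
the chart hypotheses of Layer B (`KummerRedData`) hold for `R := Val.redDataBar N' A`:

* `ℓ ∤ 6` : `N' = N`,     `t = j`,  `β = 1728`;
* `ℓ = 3` : `N' = 2 * N`, `t = t₂`, `β = -64`;
* `ℓ = 2` : `N' = 3 * N`, `t = t₃`, `β = -27`.

The only hypothesis left to the consumer is the degree inequality at `j` ((C3), M-DEG), which is
transferred to `t` here (helper83's `DegChart`).
-/

set_option autoImplicit false

noncomputable section

namespace Fermat.Agent.GJ.J1.Haupt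

open ModularCurve Polynomial IntermediateField
open Fermat.Agent.S24 Fermat.Agent.GJ.J1 Fermat.Agent.GJ.J1.Val Fermat.Agent.GJ.J1.DiffAdapter

variable (N : ℕ) [NeZero N] (A : ValuationSubring Kbar)

local notation "𝕜" => IsLocalRing.ResidueField A

/-! ### branch data in `PlaceBranch` form -/

theorem eval_X_mul_X_sub_C_ne_zero {β c : Kbar} (h : (X * (X - C β)).eval c ≠ 0) :
    c ≠ 0 ∧ c ≠ β := by
  rw [eval_mul, eval_X, eval_sub, eval_X, eval_C] at h
  exact ⟨left_ne_zero_of_mul h, fun hc => right_ne_zero_of_mul h (by rw [hc, sub_self])⟩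

theorem placeBranch_jF : PlaceBranch Kbar (jF N) (X * (X - C (1728 : Kbar))) := by
  intro v c hc h
  obtain ⟨h0, h1⟩ := eval_X_mul_X_sub_C_ne_zero hc
  exact Fermat.Agent.GJ.Aux.Branch.unramified_of_ne_one v c h0 h1 h

theorem placeBranch_tTwoF (h : 2 ∣ N) :
    PlaceBranch Kbar (tTwoF N h) (X * (X - C (-64 : Kbar))) := by
  intro v c hc hpos
  obtain ⟨h0, h1⟩ := eval_X_mul_X_sub_C_ne_zero hc
  exact Fermat.Agent.GJ.Aux.Branch.unramified_of_ne_two (jF_mul_tTwoF_sq N h) v c h0 h1 hpos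

theorem placeBranch_tThreeF (h : 3 ∣ N) :
    PlaceBranch Kbar (tThreeF N h) (X * (X - C (-27 : Kbar))) := by
  intro v c hc hpos
  obtain ⟨h0, h1⟩ := eval_X_mul_X_sub_C_ne_zero hc
  exact Fermat.Agent.GJ.Aux.Branch.unramified_of_ne_three (jF_mul_tThreeF_cube N h) v c h0 h1 hpos

/-! ### the branch values as elements of `A` -/

theorem coe_intCast_A (n : ℤ) : (((n : ℤ) : A) : Kbar) = (n : Kbar) := by
  push_cast; rfl

theorem placeBranch_jF_A :
    PlaceBranch Kbar (jF N) (X * (X - C ((((1728 : ℤ) : A)) : Kbar))) := by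
  rw [coe_intCast_A]; simpa using placeBranch_jF N

theorem placeBranch_tTwoF_A (h : 2 ∣ N) :
    PlaceBranch Kbar (tTwoF N h) (X * (X - C ((((-64 : ℤ) : A)) : Kbar))) := by
  rw [coe_intCast_A]; simpa using placeBranch_tTwoF N h

theorem placeBranch_tThreeF_A (h : 3 ∣ N) :
    PlaceBranch Kbar (tThreeF N h) (X * (X - C ((((-27 : ℤ) : A)) : Kbar))) := by
  rw [coe_intCast_A]; simpa using placeBranch_tThreeF N h

/-! ### finiteness over the chart -/

theorem finiteDimensional_jF : FiniteDimensional Kbar⟮jF N⟯ (FN N) :=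
  Fermat.Agent.S24.InteriorCounts.finiteDimensional_adjoin_jF N

theorem finiteDimensional_tTwoF (h : 2 ∣ N) (h2 : (2 : 𝕜) ≠ 0) :
    FiniteDimensional Kbar⟮tTwoF N h⟯ (FN N) :=
  haveI := finiteDimensional_jF N
  Fermat.Agent.GJ.Aux.DegChart.finiteDimensional_K_two (redDataBar N A) h2 (isGaussChart_jF N A)
    (jF_mul_tTwoF_sq N h)

theorem finiteDimensional_tThreeF (h : 3 ∣ N) (h3 : (3 : 𝕜) ≠ 0) :
    FiniteDimensional Kbar⟮tThreeF N h⟯ (FN N) :=
  haveI := finiteDimensional_jF N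
  Fermat.Agent.GJ.Aux.DegChart.finiteDimensional_K_three (redDataBar N A) h3 (isGaussChart_jF N A)
    (jF_mul_tThreeF_cube N h)

/-! ### transfer of the degree inequality from `j` to the chart -/

theorem hdeg_tTwoF (h : 2 ∣ N) (h2 : (2 : 𝕜) ≠ 0) (ht : tTwoF N h ∈ (redDataBar N A).Rw)
    (hdeg : Module.finrank Kbar⟮jF N⟯ (FN N) ≤
      Module.finrank 𝕜⟮(redDataBar N A).red ⟨jF N, jF_mem_Rw N A⟩⟯ (FresBar N A)) :
    Module.finrank Kbar⟮tTwoF N h⟯ (FN N) ≤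
      Module.finrank 𝕜⟮(redDataBar N A).red ⟨tTwoF N h, ht⟩⟯ (FresBar N A) :=
  Fermat.Agent.GJ.Aux.DegChart.finrank_le_two (redDataBar N A) h2 (isGaussChart_jF N A) ht
    (jF_mul_tTwoF_sq N h) hdeg

theorem hdeg_tThreeF (h : 3 ∣ N) (h3 : (3 : 𝕜) ≠ 0) (ht : tThreeF N h ∈ (redDataBar N A).Rw)
    (hdeg : Module.finrank Kbar⟮jF N⟯ (FN N) ≤
      Module.finrank 𝕜⟮(redDataBar N A).red ⟨jF N, jF_mem_Rw N A⟩⟯ (FresBar N A)) :
    Module.finrank Kbar⟮tThreeF N h⟯ (FN N) ≤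
      Module.finrank 𝕜⟮(redDataBar N A).red ⟨tThreeF N h, ht⟩⟯ (FresBar N A) :=
  Fermat.Agent.GJ.Aux.DegChart.finrank_le_three (redDataBar N A) h3 (isGaussChart_jF N A) ht
    (jF_mul_tThreeF_cube N h) hdeg

/-! ### small characteristic facts -/

theorem two_ne_zero_of_charP_three [CharP 𝕜 3] : (2 : 𝕜) ≠ 0 := by
  have h := CharP.cast_eq_zero_iff 𝕜 3 2
  intro h0
  have : (3 : ℕ) ∣ 2 := h.mp (by exact_mod_cast h0)
  omega

theorem three_ne_zero_of_charP_two [CharP 𝕜 2] : (3 : 𝕜) ≠ 0 := by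
  have h := CharP.cast_eq_zero_iff 𝕜 2 3
  intro h0
  have : (2 : ℕ) ∣ 3 := h.mp (by exact_mod_cast h0)
  omega

/-! ### the package -/

/-- **The chart package at an auxiliary level.**  `N` already satisfies `ℓ = 2 → 3 ∣ N` and
`ℓ = 3 → 2 ∣ N` (the shape of `hK` in `s18_of_forall_k18s` / `K18sAllOfAux`): a chart `t ∈ F_N` and
a branch value `β ∈ A` with all chart hypotheses of Layer B for `R := redDataBar N A`. -/
theorem exists_chart_aux {ℓ : ℕ} (hℓ : ℓ.Prime) [CharP 𝕜 ℓ] (h2 : ℓ = 2 → 3 ∣ N)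
    (h3 : ℓ = 3 → 2 ∣ N) :
    ∃ (t : FN N) (β : A) (hgc : (redDataBar N A).IsGaussChart t),
      IsGen Kbar t ∧ FiniteDimensional Kbar⟮t⟯ (FN N) ∧
      (redDataBar N A).res β ≠ 0 ∧
      PlaceBranch Kbar t (X * (X - C (β : Kbar))) ∧
      (¬ (ℓ : ℤ) ∣ ((FresBar N A).val ((redDataBar N A).red ⟨t, hgc.1⟩)).order) ∧
      (Module.finrank Kbar⟮jF N⟯ (FN N) ≤
          Module.finrank 𝕜⟮(redDataBar N A).red ⟨jF N, jF_mem_Rw N A⟩⟯ (FresBar N A) →
        Module.finrank Kbar⟮t⟯ (FN N) ≤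
          Module.finrank 𝕜⟮(redDataBar N A).red ⟨t, hgc.1⟩⟯ (FresBar N A)) := by
  by_cases e2 : ℓ = 2
  · have hd : 3 ∣ N := h2 e2
    subst e2
    have h3' : (3 : 𝕜) ≠ 0 := three_ne_zero_of_charP_two A
    exact ⟨tThreeF N hd, ((-27 : ℤ) : A), isGaussChart_tThreeF N A hd, isGen_tThreeF N hd,
      finiteDimensional_tThreeF N A hd h3', res_neg27_ne_zero hℓ (by norm_num),
      placeBranch_tThreeF_A N A hd, hord_tThreeF N A hd hℓ _, hdeg_tThreeF N A hd h3' _⟩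
  by_cases e3 : ℓ = 3
  · have hd : 2 ∣ N := h3 e3
    subst e3
    have h2' : (2 : 𝕜) ≠ 0 := two_ne_zero_of_charP_three A
    exact ⟨tTwoF N hd, ((-64 : ℤ) : A), isGaussChart_tTwoF N A hd, isGen_tTwoF N hd,
      finiteDimensional_tTwoF N A hd h2', res_neg64_ne_zero hℓ (by norm_num),
      placeBranch_tTwoF_A N A hd, hord_tTwoF N A hd hℓ _, hdeg_tTwoF N A hd h2' _⟩
  · exact ⟨jF N, ((1728 : ℤ) : A), isGaussChart_jF N A,
      Fermat.Agent.S24_helper62.isGen_jF N, finiteDimensional_jF N,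
      res_1728_ne_zero hℓ e2 e3, placeBranch_jF_A N A, hord_jF N A hℓ _, fun h => h⟩

/-- **The chart package.**  For `ℓ ∤ N` prime and `A` of residue characteristic `ℓ` there are a
level `N'` with `N ∣ N'`, `ℓ ∤ N'`, a chart `t ∈ F_{N'}` and a branch value `β ∈ A` satisfying all
chart hypotheses of Layer B for `R := redDataBar N' A`; the degree inequality at `t` follows from
the one at `j` (level `N'`). -/
theorem exists_chart {ℓ : ℕ} (hℓ : ℓ.Prime) (hℓN : ¬ ℓ ∣ N) [CharP 𝕜 ℓ] :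
    ∃ (N' : ℕ) (_ : NeZero N'), N ∣ N' ∧ ¬ ℓ ∣ N' ∧
      ∃ (t : FN N') (β : A) (hgc : (redDataBar N' A).IsGaussChart t),
        IsGen Kbar t ∧ FiniteDimensional Kbar⟮t⟯ (FN N') ∧
        (redDataBar N' A).res β ≠ 0 ∧
        PlaceBranch Kbar t (X * (X - C (β : Kbar))) ∧
        (¬ (ℓ : ℤ) ∣ ((FresBar N' A).val ((redDataBar N' A).red ⟨t, hgc.1⟩)).order) ∧
        (Module.finrank Kbar⟮jF N'⟯ (FN N') ≤
            Module.finrank 𝕜⟮(redDataBar N' A).red ⟨jF N', jF_mem_Rw N' A⟩⟯ (FresBar N' A) →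
          Module.finrank Kbar⟮t⟯ (FN N') ≤
            Module.finrank 𝕜⟮(redDataBar N' A).red ⟨t, hgc.1⟩⟯ (FresBar N' A)) := by
  by_cases h2 : ℓ = 2
  · -- `ℓ = 2`: level `3 N`, chart `t₃`, `β = -27`
    subst h2
    have hN' : NeZero (3 * N) := ⟨mul_ne_zero (by norm_num) (NeZero.ne N)⟩
    have hd : 3 ∣ 3 * N := dvd_mul_right 3 N
    have h3 : (3 : 𝕜) ≠ 0 := three_ne_zero_of_charP_two A
    refine ⟨3 * N, hN', dvd_mul_left N 3, ?_, tThreeF (3 * N) hd, ((-27 : ℤ) : A),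
      isGaussChart_tThreeF (3 * N) A hd, isGen_tThreeF (3 * N) hd,
      finiteDimensional_tThreeF (3 * N) A hd h3, res_neg27_ne_zero hℓ (by norm_num),
      placeBranch_tThreeF_A (3 * N) A hd, hord_tThreeF (3 * N) A hd hℓ _,
      hdeg_tThreeF (3 * N) A hd h3 _⟩
    intro h
    rcases (Nat.Prime.dvd_mul hℓ).mp h with h | h
    · omega
    · exact hℓN h
  by_cases h3 : ℓ = 3
  · -- `ℓ = 3`: level `2 N`, chart `t₂`, `β = -64`
    subst h3
    have hN' : NeZero (2 * N) := ⟨mul_ne_zero (by norm_num) (NeZero.ne N)⟩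
    have hd : 2 ∣ 2 * N := dvd_mul_right 2 N
    have h2' : (2 : 𝕜) ≠ 0 := two_ne_zero_of_charP_three A
    refine ⟨2 * N, hN', dvd_mul_left N 2, ?_, tTwoF (2 * N) hd, ((-64 : ℤ) : A),
      isGaussChart_tTwoF (2 * N) A hd, isGen_tTwoF (2 * N) hd,
      finiteDimensional_tTwoF (2 * N) A hd h2', res_neg64_ne_zero hℓ (by norm_num),
      placeBranch_tTwoF_A (2 * N) A hd, hord_tTwoF (2 * N) A hd hℓ _,
      hdeg_tTwoF (2 * N) A hd h2' _⟩
    intro h
    rcases (Nat.Prime.dvd_mul hℓ).mp h with h | h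
    · omega
    · exact hℓN h
  · -- `ℓ ∤ 6`: level `N`, chart `j`, `β = 1728`
    exact ⟨N, inferInstance, dvd_rfl, hℓN, jF N, ((1728 : ℤ) : A), isGaussChart_jF N A,
      Fermat.Agent.S24_helper62.isGen_jF N, finiteDimensional_jF N,
      res_1728_ne_zero hℓ h2 h3, placeBranch_jF_A N A, hord_jF N A hℓ _, fun h => h⟩

end Fermat.Agent.GJ.J1.Haupt
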