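import Mathlib
import Fermat.Agent.GJ.J1.Haupt.ChartPack
import Fermat.Agent.GJ.J1.KummerRedDataFinal
import Fermat.Agent.GJ.AuxL.RankOneA
import Fermat.Agent.GJ.J1.ResidueAlgClosed
import Fermat.Agent.GJ.J1.Val.CharP

/-!
# GATE-J / J1 Layer C core (helper32): the Kummer theorem for `ℚ̄(X₀(N))` at an auxiliary level

`kummer_redData_final` (helper30, Layer B) instantiated at `R := Val.redDataBar N A` with the chart
package `exists_chart_aux`.  The ONLY remaining hypothesis is the degree inequality at `j`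
((C3), M-DEG): `[F_N : ℚ̄(j)] ≤ [FresBar : k(j~)]`.
-/

set_option autoImplicit false

noncomputable section

namespace Fermat.Agent.GJ.J1.Haupt

open ModularCurve Polynomial IntermediateField AlgebraicCurve
open Fermat.Agent.S24 Fermat.Agent.GJ.J1 Fermat.Agent.GJ.J1.Val Fermat.Agent.GJ.J1.DiffAdapter

variable (N : ℕ) [NeZero N] (A : ValuationSubring Kbar)

local notation "𝕜" => IsLocalRing.ResidueField A

/-- **Kummer at an auxiliary level.**  `ℓ` prime, `A` over `ℓ`, `N` with `ℓ = 2 → 3 ∣ N`,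
`ℓ = 3 → 2 ∣ N`, degree preservation at `j`; `a, b ∈ Rw` with the same nonzero reduction and
`m ∣ ord_P a - ord_P b` for all places `P`, `ℓ ∤ m`: then `a = b · v ^ m`. -/
theorem kummer_bar {ℓ : ℕ} [Fact ℓ.Prime] (hA : A.LiesOverPrime ℓ) (h2 : ℓ = 2 → 3 ∣ N)
    (h3 : ℓ = 3 → 2 ∣ N)
    (hdegj : Module.finrank Kbar⟮jF N⟯ (FN N) ≤
      Module.finrank 𝕜⟮(redDataBar N A).red ⟨jF N, jF_mem_Rw N A⟩⟯ (FresBar N A))
    {m : ℕ} (hm : ¬ ℓ ∣ m) {a b : FN N} (ha : a ∈ (redDataBar N A).Rw)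
    (hb : b ∈ (redDataBar N A).Rw)
    (hab : (redDataBar N A).red ⟨a, ha⟩ = (redDataBar N A).red ⟨b, hb⟩)
    (hne : (redDataBar N A).red ⟨a, ha⟩ ≠ 0)
    (hdvd : ∀ P : Place Kbar (FN N), (m : ℤ) ∣ P.ord a - P.ord b) :
    ∃ v : FN N, v ≠ 0 ∧ a = b * v ^ m := by
  have hℓ : ℓ.Prime := Fact.out
  have : CharP 𝕜 ℓ := charP_residue A hℓ hA
  obtain ⟨t, β, hgc, hgen, hfin, hβ, hbr, hord, hdeg⟩ := exists_chart_aux N A hℓ h2 h3
  have := hgen
  exact Fermat.Agent.GJ.J1.KummerRedData.kummer_redData_final ℓ t (redDataBar N A)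
    (fun x hx => unramified A (modularFunctionFieldBar N) (hasGaussFrac_bar N A) x hx)
    (fun x c _ hx hc => Fermat.Agent.GJ.AuxL.RankOneA.exists_pow_valuation_le A hℓ hA hx hc)
    hgc.1 hgc.2 (hdeg hdegj) β hβ hbr (FresBar N A).val hord hm ha hb hab hne hdvd

end Fermat.Agent.GJ.J1.Haupt
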