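import Mathlib
import Fermat.Agent.GJ.J1.Haupt.KummerBar
import Fermat.Agent.GJ.J1.Gauss.DegAtJ

/-!
# GATE-J / J1 Layer C core, unconditional (helper32)

`kummer_bar` with the degree inequality at `j` discharged by helper28's `GaussDeg.finrank_jF_le`.
-/

set_option autoImplicit false

noncomputable section

namespace Fermat.Agent.GJ.J1.Haupt

open ModularCurve AlgebraicCurve
open Fermat.Agent.S24 Fermat.Agent.GJ.J1 Fermat.Agent.GJ.J1.Val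

/-- **Kummer for `ℚ̄(X₀(N))` at an auxiliary level, unconditional.**  `ℓ` prime, `ℓ ∤ N`,
`ℓ = 2 → 3 ∣ N`, `ℓ = 3 → 2 ∣ N`, `A` over `ℓ`, `ℓ ∤ m`; `a, b ∈ Rw` (the Gauss valuation ring of
`redDataBar N A`) with the same nonzero reduction and `m ∣ ord_P a - ord_P b` at all places:
then `a = b · v ^ m` for some `v ≠ 0`. -/
theorem kummer_bar_final (N : ℕ) [NeZero N] (A : ValuationSubring Kbar) {ℓ : ℕ} [Fact ℓ.Prime]
    (hℓN : ¬ ℓ ∣ N) (hA : A.LiesOverPrime ℓ) (h2 : ℓ = 2 → 3 ∣ N) (h3 : ℓ = 3 → 2 ∣ N)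
    {m : ℕ} (hm : ¬ ℓ ∣ m) {a b : FN N} (ha : a ∈ (redDataBar N A).Rw)
    (hb : b ∈ (redDataBar N A).Rw)
    (hab : (redDataBar N A).red ⟨a, ha⟩ = (redDataBar N A).red ⟨b, hb⟩)
    (hne : (redDataBar N A).red ⟨a, ha⟩ ≠ 0)
    (hdvd : ∀ P : Place Kbar (FN N), (m : ℤ) ∣ P.ord a - P.ord b) :
    ∃ v : FN N, v ≠ 0 ∧ a = b * v ^ m :=
  kummer_bar N A hA h2 h3 (Fermat.Agent.GJ.GaussDeg.finrank_jF_le N A hℓN hA) hm ha hb hab hne hdvd

end Fermat.Agent.GJ.J1.Haupt
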