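import Mathlib
import Fermat.Agent.GJ.J1.Haupt.KummerBarFinal
import Fermat.Agent.GJ.J1.K18sAllOfAux

/-!
# GATE-J / J1 Layer C, final term (helper32): `k18sAux : K18sAux`

`K18s A (residue A) N' m` at every auxiliary level from `kummer_bar_final`: integral series
`a, b ∈ A((q))` with `emb a, emb b ∈ F_{N'}` lie in the Gauss valuation ring `Rw`, and their
reductions are the coefficientwise reductions.
-/

set_option autoImplicit false

noncomputable section

namespace Fermat.Agent.GJ.J1.Haupt

open ModularCurve AlgebraicCurve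
open Fermat.Agent.S24 Fermat.Agent.GJ.J1 Fermat.Agent.GJ.J1.Val Fermat.Agent.GJ.S18.Front

/-- the reduction of an integral element is its coefficientwise reduction -/
theorem coe_red_int (N : ℕ) [NeZero N] (A : ValuationSubring Kbar) {a : LaurentSeries A}
    (ha : emb A a ∈ modularFunctionFieldBar N)
    (h : (⟨emb A a, ha⟩ : FN N) ∈ (redDataBar N A).Rw) :
    (((redDataBar N A).red ⟨⟨emb A a, ha⟩, h⟩ : FresBar N A) :
      LaurentSeries (IsLocalRing.ResidueField A)) = rd A a :=
  redL_int (hGF := hasGaussFrac_bar N A) ha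

/-- **Layer C**: the Kummer statement `K18s` at all auxiliary levels. -/
theorem k18sAux : Fermat.Agent.GJ.J1.K18sAllOfAux.K18sAux := by
  intro ℓ hℓ A hA N' _ hℓN h2 h3 m hm a b ha hb hred hne hdvd
  have : Fact ℓ.Prime := ⟨hℓ⟩
  have haRw : (⟨emb A a, ha⟩ : FN N') ∈ (redDataBar N' A).Rw :=
    int_mem_Rw (hGF := hasGaussFrac_bar N' A) ha
  have hbRw : (⟨emb A b, hb⟩ : FN N') ∈ (redDataBar N' A).Rw :=
    int_mem_Rw (hGF := hasGaussFrac_bar N' A) hb
  refine kummer_bar_final N' A hℓN hA h2 h3 hm haRw hbRw ?_ ?_ hdvd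
  · apply Subtype.ext
    rw [coe_red_int N' A ha haRw, coe_red_int N' A hb hbRw]
    exact hred
  · intro h0
    apply hne
    have h1 := coe_red_int N' A ha haRw
    rw [h0] at h1
    exact h1.symm

end Fermat.Agent.GJ.J1.Haupt
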